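import Fermat.Agent.ES.Dict.Defs

/-!
# S24 library, task G1: the function field is generated by the `Jgen d`
-/

set_option autoImplicit false
set_option linter.unusedSectionVars false

open ModularCurve

open Fermat.Agent.S24lib

namespace Fermat.Agent.ESlib

variable {K : Type} [Field K] [Algebra ℚ K] [IsAlgClosed K] [CharZero K] [Algebra K ℂ]
  [IsScalarTower ℚ K ℂ]

variable (N : ℕ) [NeZero N]

theorem coeffEmb_mem_adjoin_Jgen {x : LaurentSeries ℚ} (hx : x ∈ modularFunctionFieldFull N) :
    coeffEmb K x ∈ IntermediateField.adjoin K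
      (Subtype.val '' Set.range (Jgen K N) : Set (LaurentSeries K)) := by
  unfold modularFunctionFieldFull at hx
  induction hx using IntermediateField.adjoin_induction with
  | mem x hx =>
    obtain ⟨d, hd0, hd, rfl⟩ := hx
    exact IntermediateField.subset_adjoin _ _ ⟨Jgen K N ⟨d, hd⟩, ⟨_, rfl⟩, rfl⟩
  | algebraMap c =>
    rw [eq_ratCast, map_ratCast]
    exact SubfieldClass.ratCast_mem _ c
  | add x y _ _ hx hy => rw [map_add]; exact add_mem hx hy
  | inv x _ hx => rw [map_inv₀]; exact inv_mem hx
  | mul x y _ _ hx hy => rw [map_mul]; exact mul_mem hx hy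

theorem adjoin_range_Jgen : IntermediateField.adjoin K (Set.range (Jgen K N)) = ⊤ := by
  apply IntermediateField.lift_injective
  rw [IntermediateField.lift_adjoin, IntermediateField.lift_top]
  apply le_antisymm
  · rw [IntermediateField.adjoin_le_iff]
    rintro _ ⟨x, _, rfl⟩
    exact x.2
  · show IntermediateField.adjoin _ _ ≤ _
    rw [IntermediateField.adjoin_le_iff]
    rintro _ ⟨x, hx, rfl⟩
    exact coeffEmb_mem_adjoin_Jgen N hx

/-- every element of the function field is a quotient of two polynomials in the generators -/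
theorem exists_frac (f : FK K N) :
    ∃ P Q : MvPolynomial (Dv N) K, evF K N Q ≠ 0 ∧ f = evF K N P / evF K N Q := by
  have hf : f ∈ IntermediateField.adjoin K (Set.range (Jgen K N)) := by
    rw [adjoin_range_Jgen]; exact IntermediateField.mem_top
  obtain ⟨P, Q, h⟩ := (IntermediateField.mem_adjoin_range_iff K (Jgen K N) f).mp hf
  by_cases hQ : evF K N Q = 0
  · refine ⟨0, 1, by simp, ?_⟩
    have hQ' : MvPolynomial.aeval (Jgen K N) Q = 0 := hQ
    rw [h, hQ']
    simp
  · exact ⟨P, Q, hQ, h⟩

end Fermat.Agent.ESlib
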