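import Fermat.Agent.ES.Dict.Annih
import Fermat.Agent.ES.Dict.ChartEmb
import Fermat.Agent.S24.JSurj
import Fermat.Agent.S24.DegreeAbs

/-!
# S24 library, task G9: `[FK K N : K(j)] = ψ(N)`
-/

set_option autoImplicit false
set_option linter.unusedSectionVars false

open UpperHalfPlane hiding I
open ModularForm MatrixGroups Filter Topology ModularCurve Complex IntermediateField
open scoped Manifold Real

open Fermat.Agent.S24lib

namespace Fermat.Agent.ESlib

variable {K : Type} [Field K] [Algebra ℚ K] [IsAlgClosed K] [CharZero K] [Algebra K ℂ]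
  [IsScalarTower ℚ K ℂ]

variable (N : ℕ) [NeZero N]

/-- the variable corresponding to `j` -/
noncomputable def X1 : MvPolynomial (Dv N) K := MvPolynomial.X ⟨1, one_dvd N⟩

theorem evF_X1 : evF K N (X1 N) = J1 K N := by simp [X1, evF, J1]

theorem evH_X1 (τ : ℍ) : evH K N (X1 N) τ = jfun τ := by
  simp only [X1, evH, MvPolynomial.aeval_X]
  exact jd_one τ

theorem jfun_surjective : Function.Surjective jfun := JSurj.surjective_E4_cube_div_disc

theorem transcendental_J1 : Transcendental K (J1 K N) := by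
  rw [transcendental_iff]
  intro p hp
  have h1 : evF K N (Polynomial.aeval (X1 N) p) = 0 := by
    rw [← Polynomial.aeval_algHom_apply, evF_X1, hp]
  rw [evF_eq_zero_iff] at h1
  have h2 : ∀ τ : ℍ, Polynomial.aeval (jfun τ) p = 0 := by
    intro τ
    have h3 := congrFun h1 τ
    have h4 := Polynomial.aeval_algHom_apply ((Pi.evalAlgHom K (fun _ : ℍ => ℂ) τ).comp (evH K N))
      (X1 N) p
    have h5 : ((Pi.evalAlgHom K (fun _ : ℍ => ℂ) τ).comp (evH K N)) (X1 N) = jfun τ := evH_X1 N τ
    rw [h5] at h4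
    rw [h4]
    exact h3
  have h3 : p.map (algebraMap K ℂ) = 0 := by
    apply Polynomial.eq_zero_of_infinite_isRoot
    have : {x | (p.map (algebraMap K ℂ)).IsRoot x} = Set.univ := by
      ext z
      obtain ⟨τ, rfl⟩ := jfun_surjective z
      simp only [Set.mem_setOf_eq, Set.mem_univ, iff_true, Polynomial.IsRoot, Polynomial.eval_map]
      exact h2 τ
    rw [this]
    exact Set.infinite_univ
  exact (Polynomial.map_eq_zero _).1 h3

theorem annihilator_aux (P : MvPolynomial (Dv N) K) :
    ∃ χ : Polynomial (Polynomial K), χ.Monic ∧ χ.natDegree = dedekindPsi N ∧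
      Polynomial.eval₂ (Polynomial.aeval (evF K N (X1 N)) : Polynomial K →ₐ[K] FK K N).toRingHom
        (evF K N P) χ = 0 := by
  rw [evF_X1]
  exact exists_monic_annihilator N P

theorem finiteDimensional_J1 : FiniteDimensional K⟮J1 K N⟯ (FK K N) := by
  have := DegAbs.finiteDimensional (evF K N) (X1 N) (dedekindPsi N) (exists_frac N)
    (annihilator_aux N)
  rwa [evF_X1] at this

theorem chartEmb_J1 (γ : SL(2, ℤ)) (τ₀ : ℍ) :
    chartEmb K (isChart_cInt N γ τ₀) (J1 K N) = laurent (fun t => jfun (ofComplex ((τ₀ : ℂ) + t))) := by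
  rw [J1, chartEmb_Jgen]
  congr 1
  ext t
  rw [jd_one, cInt, jfun_smul]

theorem finrank_J1 : Module.finrank K⟮J1 K N⟯ (FK K N) = dedekindPsi N := by
  apply le_antisymm
  · have := DegAbs.finrank_le (evF K N) (X1 N) (dedekindPsi N) (exists_frac N)
      (annihilator_aux N) (by rw [evF_X1]; exact transcendental_J1 N)
    rwa [evF_X1] at this
  · have := finiteDimensional_J1 (K := K) N
    rw [← S20lib.card_quot_Gamma0 N]
    refine DegAbs.le_finrank (L := LaurentSeries ℂ) (J1 K N)
      (fun x : SL(2, ℤ) ⧸ CongruenceSubgroup.Gamma0 N =>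
        chartEmb K (isChart_cInt N (x.out)⁻¹ UpperHalfPlane.I)) ?_ ?_
    · intro x y h
      have h1 := mem_Gamma0_of_chartEmb_eq (N := N)
        (z := fun t => ofComplex (((UpperHalfPlane.I : ℍ) : ℂ) + t))
        (isChart_cInt N (x.out)⁻¹ UpperHalfPlane.I) (isChart_cInt N (y.out)⁻¹ UpperHalfPlane.I) h
      rw [inv_inv] at h1
      rw [← QuotientGroup.out_eq' x, ← QuotientGroup.out_eq' y]
      exact (QuotientGroup.eq.2 h1).symm
    · intro x y
      rw [chartEmb_J1, chartEmb_J1]

end Fermat.Agent.ESlib
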