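import Fermat.Agent.S24.Count
import Fermat.Agent.ES.Dict.Degree
import Fermat.Agent.S24.MobGerm
import Fermat.Agent.S21.ParabolicDim

/-!
# S24 library, task G10: the number of places of `FK K N` over each finite point of the `j`-line
(the cusps are in `FibreCusp.lean`)
-/

set_option autoImplicit false
set_option linter.unusedSectionVars false

open UpperHalfPlane hiding I
open ModularForm MatrixGroups Filter Topology ModularCurve Complex IntermediateField AlgebraicCurve
open CongruenceSubgroup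
open scoped Manifold Real

open Fermat.Agent.S24lib

namespace Fermat.Agent.ESlib

variable {K : Type} [Field K] [Algebra ℚ K] [IsAlgClosed K] [CharZero K] [Algebra K ℂ]
  [IsScalarTower ℚ K ℂ]

variable (N : ℕ) [NeZero N]

theorem order_ofPowerSeries_eq {p : PowerSeries ℂ} {r : ℕ} (h : p.order = r) :
    (HahnSeries.ofPowerSeries ℤ ℂ p).order = r := by
  rw [PowerSeries.order_eq_nat] at h
  have hc : ∀ j : ℤ, (HahnSeries.ofPowerSeries ℤ ℂ p).coeff j =
      if j < 0 then 0 else p.coeff j.natAbs := fun j => PowerSeries.coeff_coe _ _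
  have hne : HahnSeries.ofPowerSeries ℤ ℂ p ≠ 0 := by
    intro h0
    have := hc r
    rw [h0] at this
    simp only [HahnSeries.coeff_zero, Int.natAbs_natCast] at this
    rw [if_neg (by omega)] at this
    exact h.1 this.symm
  apply le_antisymm
  · apply HahnSeries.order_le_of_coeff_ne_zero
    rw [hc, if_neg (by omega), Int.natAbs_natCast]
    exact h.1
  · rw [HahnSeries.le_order_iff_forall hne]
    intro j hj
    rw [hc]
    split_ifs with hj0
    · rfl
    · exact h.2 _ (by omega)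

theorem chartEmb_cInt_J1 (γ : SL(2, ℤ)) (τ₀ : ℍ) :
    chartEmb K (isChart_cInt N γ τ₀) (J1 K N) =
      HahnSeries.ofPowerSeries ℤ ℂ (taylor (jgerm τ₀)) := by
  rw [J1, chartEmb_Jgen, ← laurent_of_analyticAt (analyticAt_jgerm τ₀)]
  congr 1
  funext t
  rw [jd_one, cInt, jfun_smul]
  rfl

theorem chartEmb_cInt_sub (γ : SL(2, ℤ)) (τ₀ : ℍ) (a : K) (ha : jfun τ₀ = algebraMap K ℂ a) :
    chartEmb K (isChart_cInt N γ τ₀) (J1 K N - algebraMap K (FK K N) a) =
      HahnSeries.ofPowerSeries ℤ ℂ (taylor (jgerm τ₀) - PowerSeries.C (jfun τ₀)) := by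
  rw [map_sub, chartEmb_cInt_J1, AlgHom.commutes, map_sub, HahnSeries.ofPowerSeries_C, ha]
  congr 1
  rw [HahnSeries.algebraMap_apply', PowerSeries.algebraMap_apply, HahnSeries.ofPowerSeries_C]


theorem adjoin_sub_algebraMap (a : K) :
    K⟮J1 K N - algebraMap K (FK K N) a⟯ = K⟮J1 K N⟯ := by
  apply le_antisymm
  · rw [adjoin_simple_le_iff]
    exact sub_mem (mem_adjoin_simple_self K _) (IntermediateField.algebraMap_mem _ a)
  · rw [adjoin_simple_le_iff]
    have := add_mem (mem_adjoin_simple_self K (J1 K N - algebraMap K (FK K N) a))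
      (IntermediateField.algebraMap_mem K⟮J1 K N - algebraMap K (FK K N) a⟯ a)
    rwa [sub_add_cancel] at this

theorem transcendental_J1_sub (a : K) :
    Transcendental K (J1 K N - algebraMap K (FK K N) a) := by
  intro h
  apply transcendental_J1 (K := K) N
  have : J1 K N = (J1 K N - algebraMap K (FK K N) a) + algebraMap K (FK K N) a := by ring
  rw [this]
  exact h.add (isAlgebraic_algebraMap a)

theorem card_places_interior (τ₀ : ℍ) (a : K) (ha : jfun τ₀ = algebraMap K ℂ a)
    (g : SL(2, ℤ)) (hg : g • τ₀ = τ₀) (r : ℕ)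
    (hr : (taylor (jgerm τ₀) - PowerSeries.C (jfun τ₀)).order = r)
    (hprim : IsPrimitiveRoot ((denom g τ₀) ^ (-2 : ℤ)) r) :
    Nat.card {v : Place K (FK K N) // 0 < v.ord (J1 K N - algebraMap K (FK K N) a)} =
      Nat.card (MulAction.orbitRel.Quotient (Subgroup.zpowers g) (SL(2, ℤ) ⧸ Gamma0 N)) := by
  have hfd : FiniteDimensional K⟮J1 K N - algebraMap K (FK K N) a⟯ (FK K N) := by
    rw [adjoin_sub_algebraMap]
    exact finiteDimensional_J1 N
  have hX : Nat.card (SL(2, ℤ) ⧸ Gamma0 N) =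
      Module.finrank K⟮J1 K N - algebraMap K (FK K N) a⟯ (FK K N) := by
    rw [adjoin_sub_algebraMap, finrank_J1, S20lib.card_quot_Gamma0]
  have hr0 : 0 < r := by
    rcases Nat.eq_zero_or_pos r with h0 | h0
    · exfalso
      rw [h0, PowerSeries.order_eq_nat] at hr
      apply hr.1
      rw [map_sub, PowerSeries.coeff_zero_eq_constantCoeff_apply, constantCoeff_taylor,
        PowerSeries.coeff_zero_C]
      simp [jgerm]
    · exact h0
  let emb : (SL(2, ℤ) ⧸ Gamma0 N) → FK K N →ₐ[K] LaurentSeries ℂ :=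
    fun x => chartEmb K (isChart_cInt N (x.out)⁻¹ τ₀)
  have hembne : ∀ x (f : FK K N), f ≠ 0 → emb x f ≠ 0 := fun x f hf =>
    (map_ne_zero (emb x).toRingHom).2 hf
  refine card_places_eq_card_orbits (J1 K N - algebraMap K (FK K N) a) (transcendental_J1_sub N a)
    hX emb ?_ ?_ r hr0 ?_ g ?_ ?_
  · -- injectivity
    intro x y hxy
    have h := mem_Gamma0_of_chartEmb_eq (z := fun t => ofComplex ((τ₀ : ℂ) + t))
      (isChart_cInt N (x.out)⁻¹ τ₀) (isChart_cInt N (y.out)⁻¹ τ₀) hxy
    rw [inv_inv] at h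
    rw [← QuotientGroup.out_eq' x, ← QuotientGroup.out_eq' y]
    exact (QuotientGroup.eq.2 h).symm
  · intro x y
    show chartEmb K _ _ = chartEmb K _ _
    rw [chartEmb_cInt_sub N _ _ _ ha, chartEmb_cInt_sub N _ _ _ ha]
  · intro x
    show (chartEmb K _ _).order = _
    rw [chartEmb_cInt_sub N _ _ _ ha]
    exact order_ofPowerSeries_eq hr
  · -- invariance of the order under `g`
    intro x f
    by_cases hf : f = 0
    · rw [hf, map_zero, map_zero]
    have hg' : g⁻¹ • τ₀ = τ₀ := by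
      conv_lhs => rw [← hg]
      rw [inv_smul_smul]
    obtain ⟨e, he⟩ := QuotientGroup.mk_out_eq_mul (Gamma0 N) (g * x.out)
    have hgx : g • x = ((g * x.out : SL(2, ℤ)) : SL(2, ℤ) ⧸ Gamma0 N) := by
      conv_lhs => rw [← QuotientGroup.out_eq' x]
      rfl
    refine (chartEmb_comp (isChart_cInt N (x.out)⁻¹ τ₀) (isChart_cInt N ((g • x).out)⁻¹ τ₀)
      (analyticAt_mob g⁻¹ τ₀) (mob_zero hg') ?_ ?_ f hf).1
    · rw [deriv_mob]
      exact zpow_ne_zero _ (denom_ne_zero _ _)
    · refine Eventually.of_forall fun t => ⟨(e : SL(2, ℤ))⁻¹, inv_mem e.2, ?_⟩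
      rw [cInt, cInt, ofComplex_add_mob, hgx, he]
      simp only [mul_inv_rev, mul_smul]
  · -- stabilisers
    intro x k hk f
    by_cases hf : f = 0
    · rw [hf, map_zero, HahnSeries.order_zero, mul_zero]
      exact dvd_zero _
    have hgk : (g ^ k) • τ₀ = τ₀ := by
      clear hk
      induction k with
      | zero => simp
      | succ k ih => rw [pow_succ, mul_smul, hg, ih]
    have hδ : (x.out)⁻¹ * (g ^ k * x.out) ∈ Gamma0 N := by
      rw [← QuotientGroup.eq]
      have h1 : ((g ^ k * x.out : SL(2, ℤ)) : SL(2, ℤ) ⧸ Gamma0 N) =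
          g ^ k • ((x.out : SL(2, ℤ)) : SL(2, ℤ) ⧸ Gamma0 N) := rfl
      rw [h1, QuotientGroup.out_eq' x, hk]
    have h := (chartEmb_comp (isChart_cInt N (x.out)⁻¹ τ₀) (isChart_cInt N (x.out)⁻¹ τ₀)
      (analyticAt_mob (g ^ k) τ₀) (mob_zero hgk) ?_ ?_ f hf).2
    · have hlc : (emb x f).leadingCoeff ≠ 0 := HahnSeries.leadingCoeff_ne_zero.2 (hembne x f hf)
      have h1 : deriv (mob (g ^ k) τ₀) 0 ^ (emb x f).order = 1 := by
        have h2 : (emb x f).leadingCoeff =
            deriv (mob (g ^ k) τ₀) 0 ^ (emb x f).order * (emb x f).leadingCoeff := h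
        exact (mul_right_cancel₀ hlc (by rw [one_mul]; exact h2)).symm
      rw [deriv_mob, denom_pow_of_fixed hg, ← zpow_natCast, ← zpow_mul, ← zpow_mul,
        show (k : ℤ) * (-2 * (emb x f).order) = -2 * (k * (emb x f).order) by ring,
        zpow_mul] at h1
      exact (hprim.zpow_eq_one_iff_dvd _).1 h1
    · rw [deriv_mob]
      exact zpow_ne_zero _ (denom_ne_zero _ _)
    · refine Eventually.of_forall fun t => ⟨((x.out)⁻¹ * (g ^ k * x.out))⁻¹, inv_mem hδ, ?_⟩
      rw [cInt, cInt, ofComplex_add_mob]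
      simp only [mul_inv_rev, mul_smul, inv_inv, inv_smul_smul, smul_inv_smul]

theorem card_orbits_zpowers_one (X : Type*) [MulAction SL(2, ℤ) X] :
    Nat.card (MulAction.orbitRel.Quotient (Subgroup.zpowers (1 : SL(2, ℤ))) X) = Nat.card X := by
  symm
  refine Nat.card_congr (Equiv.ofBijective
    (fun x => (Quotient.mk'' x : MulAction.orbitRel.Quotient _ X)) ⟨?_, ?_⟩)
  · intro x y hxy
    have h1 := Quotient.eq''.1 hxy
    obtain ⟨⟨h, hh⟩, hy⟩ := (MulAction.orbitRel_apply.1 h1 : x ∈ MulAction.orbit _ y)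
    rw [Subgroup.zpowers_one_eq_bot, Subgroup.mem_bot] at hh
    subst hh
    simpa using hy.symm
  · intro q
    induction q using Quotient.inductionOn' with
    | h x => exact ⟨x, rfl⟩

theorem card_places_generic (a : K) (h0 : a ≠ 0) (h1 : a ≠ 1728) :
    Nat.card {v : Place K (FK K N) // 0 < v.ord (J1 K N - algebraMap K (FK K N) a)} =
      dedekindPsi N := by
  obtain ⟨τ₀, hτ⟩ := JSurj.surjective_E4_cube_div_disc (algebraMap K ℂ a)
  have ha : jfun τ₀ = algebraMap K ℂ a := hτ
  have hinj : Function.Injective (algebraMap K ℂ) := (algebraMap K ℂ).injective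
  have hj0 : jfun τ₀ ≠ 0 := by
    rw [ha]
    exact (map_ne_zero _).2 h0
  have hj1 : jfun τ₀ ≠ 1728 := by
    rw [ha]
    intro h
    apply h1
    apply hinj
    rw [h, map_ofNat]
  have hr : (taylor (jgerm τ₀) - PowerSeries.C (jfun τ₀)).order = ((1 : ℕ) : ℕ∞) := by
    rw [taylor_sub_const (analyticAt_jgerm τ₀), Nat.cast_one]
    apply order_taylor_eq_one
    · simp [jgerm]
    · have : deriv (fun t => jgerm τ₀ t - jfun τ₀) 0 = deriv (jgerm τ₀) 0 :=
        deriv_sub_const _
      rw [this]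
      exact deriv_jgerm_ne_zero τ₀ hj0 hj1
  rw [card_places_interior N τ₀ a ha 1 (one_smul _ _) 1 hr (by simp)]
  exact (card_orbits_zpowers_one _).trans (S20lib.card_quot_Gamma0 N)

theorem card_places_1728 :
    2 * Nat.card {v : Place K (FK K N) // 0 < v.ord (J1 K N - algebraMap K (FK K N) 1728)} =
      dedekindPsi N + nuTwo N := by
  have ha : jfun UpperHalfPlane.I = algebraMap K ℂ 1728 := by
    rw [jfun_I, map_ofNat]
  have hr : (taylor (jgerm UpperHalfPlane.I) - PowerSeries.C (jfun UpperHalfPlane.I)).order =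
      ((2 : ℕ) : ℕ∞) := by
    rw [jfun_I, order_jgerm_I]
    rfl
  have hprim : IsPrimitiveRoot ((denom (ModularGroup.S : SL(2, ℤ)) UpperHalfPlane.I) ^ (-2 : ℤ))
      2 := by
    have h1 : denom (ModularGroup.S : SL(2, ℤ)) UpperHalfPlane.I = Complex.I := by
      rw [ModularGroup.denom_S, UpperHalfPlane.coe_I]
    rw [h1]
    have h2 : (Complex.I : ℂ) ^ (-2 : ℤ) = -1 := by
      rw [zpow_neg, show (2 : ℤ) = ((2 : ℕ) : ℤ) by rfl, zpow_natCast, Complex.I_sq]
      norm_num
    rw [h2]
    exact IsPrimitiveRoot.neg_one 0 (by norm_num)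
  rw [card_places_interior N UpperHalfPlane.I 1728 ha ModularGroup.S S_smul_I 2 hr hprim,
    S21lib.two_mul_card_orbits_S, S20lib.card_quot_Gamma0, S20lib.card_fixed_S]

theorem card_places_zero :
    3 * Nat.card {v : Place K (FK K N) // 0 < v.ord (J1 K N - algebraMap K (FK K N) 0)} =
      dedekindPsi N + 2 * nuThree N := by
  have ha : jfun rho = algebraMap K ℂ 0 := by
    rw [jfun_rho, map_zero]
  have hr : (taylor (jgerm rho) - PowerSeries.C (jfun rho)).order = ((3 : ℕ) : ℕ∞) := by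
    rw [jfun_rho, map_zero, sub_zero, order_jgerm_rho]
    rfl
  have hρ := rho_sq_add
  have hprim : IsPrimitiveRoot
      ((denom (ModularGroup.S * ModularGroup.T : SL(2, ℤ)) rho) ^ (-2 : ℤ)) 3 := by
    have h1 : denom (ModularGroup.S * ModularGroup.T : SL(2, ℤ)) rho = (rho : ℂ) + 1 := by
      rw [ModularGroup.denom_apply, Matrix.SpecialLinearGroup.coe_mul]
      simp [ModularGroup.S, ModularGroup.T, Matrix.mul_apply, Fin.sum_univ_two]
    rw [h1]
    have hρ0 : (rho : ℂ) ≠ 0 := by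
      intro h
      rw [h] at hρ
      norm_num at hρ
    have h2 : ((rho : ℂ) + 1) ^ (-2 : ℤ) = (rho : ℂ) ^ 2 := by
      have h3 : ((rho : ℂ) + 1) ^ 2 = rho := by linear_combination hρ
      have h4 : (rho : ℂ) ^ 3 = 1 := by linear_combination ((rho : ℂ) - 1) * hρ
      rw [zpow_neg, show (2 : ℤ) = ((2 : ℕ) : ℤ) by rfl, zpow_natCast, h3]
      field_simp
      linear_combination -h4
    rw [h2]
    have h4 : (rho : ℂ) ^ 3 = 1 := by linear_combination ((rho : ℂ) - 1) * hρ
    refine IsPrimitiveRoot.mk_of_lt _ (by norm_num) (by rw [← pow_mul]; linear_combination ((rho : ℂ) ^ 3 + 1) * h4) ?_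
    intro l hl0 hl3
    have hne1 : (rho : ℂ) ≠ 1 := by
      intro h
      rw [h] at hρ
      norm_num at hρ
    interval_cases l
    · intro h
      rw [pow_one] at h
      apply hne1
      have : (rho : ℂ) = (rho : ℂ) ^ 3 * ((rho : ℂ) ^ 2) ^ 2 / (rho : ℂ) ^ 6 := by
        field_simp
      have h6 : (rho : ℂ) ^ 6 = 1 := by linear_combination ((rho : ℂ) ^ 3 + 1) * h4
      rw [this, h, h4, h6]
      norm_num
    · intro h
      apply hne1
      have : (rho : ℂ) = ((rho : ℂ) ^ 2) ^ 2 / (rho : ℂ) ^ 3 := by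
        field_simp
      rw [this, h, h4]
      norm_num
  rw [card_places_interior N rho 0 ha (ModularGroup.S * ModularGroup.T) ST_smul_rho 3 hr hprim,
    S21lib.three_mul_card_orbits_ST, S20lib.card_quot_Gamma0, S20lib.card_fixed_ST]

end Fermat.Agent.ESlib
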