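import Fermat.Agent.S24.Count

/-!
# ES library, part S: the equality case of the fibre count

Under the hypotheses of `S24lib.card_places_eq_card_orbits`, the ramification index of the place
attached to `emb x` is exactly the size of the `g`-orbit of `x`.
-/

set_option autoImplicit false
set_option linter.unusedSectionVars false
set_option linter.style.haveILetI false

open AlgebraicCurve Polynomial IsDedekindDomain IntermediateField
open Fermat.Agent.S24lib

namespace Fermat.Agent.ESlib

/-- equality case of `S24lib.card_eq_of_fibres` -/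
theorem card_fibre_eq {X Ω S : Type*} [Finite X] [Finite Ω] [Finite S]
    (q : X → Ω) (p : Ω → S) (hp : Function.Surjective p) (e : S → ℕ)
    (hsum : ∑ᶠ v, e v = Nat.card X) (hq : Function.Surjective q)
    (hle : ∀ ω, e (p ω) ≤ Nat.card {x // q x = ω}) (ω : Ω) :
    e (p ω) = Nat.card {x // q x = ω} := by
  classical
  have hcard := card_eq_of_fibres q p hp e hsum hq hle
  haveI := Fintype.ofFinite X
  haveI := Fintype.ofFinite Ω
  haveI := Fintype.ofFinite S
  have hbij : Function.Bijective p := by
    rw [Fintype.bijective_iff_surjective_and_card]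
    exact ⟨hp, by rw [← Nat.card_eq_fintype_card, ← Nat.card_eq_fintype_card, hcard]⟩
  rw [finsum_eq_sum_of_fintype] at hsum
  have hX : ∑ ω : Ω, Nat.card {x // q x = ω} = Nat.card X := by
    rw [← Nat.card_congr (Equiv.sigmaFiberEquiv q), Nat.card_sigma]
  have h1 : ∑ ω : Ω, e (p ω) = ∑ ω : Ω, Nat.card {x // q x = ω} := by
    rw [hX, ← hsum]
    exact hbij.sum_comp e
  exact (Finset.sum_eq_sum_iff_of_le (fun ω _ => hle ω)).1 h1 ω (Finset.mem_univ ω)

/-- Under the hypotheses of `card_places_eq_card_orbits`: if `emb x` induces `m * ord_v`, then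
`ord_v u` is the size of the `g`-orbit of `x`. -/
theorem ord_eq_minimalPeriod
    {K F C : Type*} [Field K] [IsAlgClosed K] [CharZero K] [Field F] [Algebra K F]
    [Field C] [Algebra K C]
    (u : F) (hu : Transcendental K u) [FiniteDimensional K⟮u⟯ F]
    {X : Type*} [Finite X] (hX : Nat.card X = Module.finrank K⟮u⟯ F)
    (emb : X → F →ₐ[K] LaurentSeries C) (hinj : Function.Injective emb)
    (hagree : ∀ x y, emb x u = emb y u) (r : ℕ) (hr : 0 < r)
    (hord : ∀ x, (emb x u).order = r)
    {G : Type*} [Group G] [MulAction G X] (g : G)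
    (hg : ∀ x f, (emb (g • x) f).order = (emb x f).order)
    (hstab : ∀ x (k : ℕ), g ^ k • x = x → ∀ f, (r : ℤ) ∣ k * (emb x f).order)
    (x₀ : X) (v₀ : Place K F) (m₀ : ℕ) (hm₀ : 0 < m₀)
    (hv₀ : ∀ f : F, f ≠ 0 → (emb x₀ f).order = m₀ * v₀.ord f) :
    v₀.ord u = (Function.minimalPeriod (g • ·) x₀ : ℕ) := by
  classical
  haveI := Fintype.ofFinite X
  have hr' : (0 : ℤ) < r := by exact_mod_cast hr
  have hu0 : u ≠ 0 := by
    rintro rfl
    exact hu (isAlgebraic_zero)
  obtain ⟨s, hs, hsum⟩ := exists_finset_zeros' u hu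
  have hpl : ∀ x, ∃ w : Place K F, ∃ m : ℕ, 0 < m ∧
      ∀ f : F, f ≠ 0 → (emb x f).order = m * w.ord f :=
    fun x => exists_place_of_emb (emb x) ⟨u, hu0, by rw [hord]; omega⟩
  choose w m hm hw using hpl
  have hm' : ∀ x, (0 : ℤ) < m x := fun x => by exact_mod_cast hm x
  have hwu : ∀ x, (r : ℤ) = m x * (w x).ord u := fun x => by rw [← hw x u hu0, hord]
  have hwpos : ∀ x, 0 < (w x).ord u := by
    intro x
    have h2 := hr'
    rw [hwu x] at h2
    exact (mul_pos_iff_of_pos_left (hm' x)).1 h2
  let π : X → s := fun x => ⟨w x, (hs _).2 (hwpos x)⟩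
  have hπg : ∀ x, π (g • x) = π x := by
    intro x
    apply Subtype.ext
    refine Place.eq_of_mul_ord (hm (g • x)) (hm x) fun f hf => ?_
    rw [← hw _ f hf, ← hw _ f hf, hg]
  let H : Subgroup G :=
    { carrier := {h | ∀ y, π (h • y) = π y}
      mul_mem' := by
        intro a b ha hb y
        rw [mul_smul, ha, hb]
      one_mem' := by intro y; rw [one_smul]
      inv_mem' := by
        intro a ha y
        have := ha (a⁻¹ • y)
        rw [smul_inv_smul] at this
        exact this.symm }
  have hH : Subgroup.zpowers g ≤ H := by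
    rw [Subgroup.zpowers_le]
    exact hπg
  let p : MulAction.orbitRel.Quotient (Subgroup.zpowers g) X → s :=
    Quotient.lift π (by
      rintro a b ⟨⟨h, hh⟩, rfl⟩
      exact hH hh b)
  have hp : Function.Surjective p := by
    rintro ⟨v, hv⟩
    obtain ⟨x, n, hn, hx⟩ := exists_emb_of_place' u hu emb hinj
      (by rw [← hX, Nat.card_eq_fintype_card]) hagree (fun x => by rw [hord]; exact hr') v
      ((hs v).1 hv)
    refine ⟨Quotient.mk'' x, Subtype.ext ?_⟩
    show w x = v
    refine Place.eq_of_mul_ord (hm x) hn fun f hf => ?_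
    rw [← hw _ f hf, hx f hf]
  have hcardx : ∀ x : X, Nat.card {x' // (Quotient.mk'' x' :
      MulAction.orbitRel.Quotient (Subgroup.zpowers g) X) = Quotient.mk'' x}
      = Function.minimalPeriod (g • ·) x := by
    intro x
    rw [MulAction.minimalPeriod_eq_card, ← Nat.card_eq_fintype_card]
    refine Nat.card_congr (Equiv.subtypeEquivRight fun y => ?_)
    rw [Quotient.eq'']
    exact Iff.rfl
  have key := card_fibre_eq
    (Quotient.mk'' : X → MulAction.orbitRel.Quotient (Subgroup.zpowers g) X)
    p hp (fun v => (v.1.ord u).toNat) ?_ Quotient.mk''_surjective ?_ (Quotient.mk'' x₀)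
  · rw [hcardx] at key
    have h1 : w x₀ = v₀ := Place.eq_of_mul_ord (hm x₀) hm₀ fun f hf => by
      rw [← hw _ f hf, hv₀ f hf]
    have h2 : ((w x₀).ord u).toNat = Function.minimalPeriod (g • ·) x₀ := key
    have h3 := hwpos x₀
    rw [h1] at h2 h3
    omega
  · rw [finsum_eq_sum_of_fintype, Finset.sum_coe_sort s (fun v => (v.ord u).toNat), hX]
    have : ((∑ v ∈ s, (v.ord u).toNat : ℕ) : ℤ) = Module.finrank K⟮u⟯ F := by
      rw [← hsum, Nat.cast_sum]
      refine Finset.sum_congr rfl fun v hv => ?_
      have := (hs v).1 hv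
      omega
    exact_mod_cast this
  · intro ω
    induction ω using Quotient.inductionOn' with
    | h x =>
      show ((w x).ord u).toNat ≤ _
      rw [hcardx]
      set k := Function.minimalPeriod (g • ·) x with hk
      have hkpos : 0 < k := by
        rw [hk, MulAction.minimalPeriod_eq_card]
        exact Fintype.card_pos_iff.2 ⟨⟨x, MulAction.mem_orbit_self x⟩⟩
      have hgk : g ^ k • x = x := MulAction.pow_smul_eq_iff_minimalPeriod_dvd.2 dvd_rfl
      obtain ⟨f, hf, hf1⟩ := Place.exists_ord_eq_one (w x)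
      have h1 := hstab x k hgk f
      rw [hw x f hf, hf1, mul_one, hwu x, mul_comm (k : ℤ)] at h1
      have h2 : (w x).ord u ∣ (k : ℤ) := (mul_dvd_mul_iff_left (hm' x).ne').1 h1
      have h3 := Int.le_of_dvd (by exact_mod_cast hkpos) h2
      omega

end Fermat.Agent.ESlib
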