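import Fermat.Agent.ES.Dict.Fibres
import Fermat.Agent.ES.Dict.FibreCusp
import Fermat.Agent.ES.Dict.CountEq
import Fermat.Agent.S24.RHMain

/-!
# ES library, part S: the dictionary between places of `FK K N` and charts

* `embInt τ₀ x`, `embCusp x` : the `ψ(N)` embeddings `FK K N → ℂ((t))` at an interior point / at `∞`
* `exists_place_cInt`, `exists_place_cCusp` : every chart has a centre (a place `v` and `e ≥ 1` with
  `order (chartEmb f) = e * ord_v f`)
* `exists_cInt_of_place`, `exists_cCusp_of_place`, `exists_chart_of_place` : every place is the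
  centre of a chart
* `pow_order_eq_one_of_fixed`, `exp_pow_order_eq_one` : constraints coming from stabilisers
* `exists_stab_cInt`, `exists_stab_cCusp` : the multiplicity `e` is exactly the order of the
  stabiliser
-/

set_option autoImplicit false
set_option linter.unusedSectionVars false
set_option linter.style.haveILetI false

open UpperHalfPlane hiding I
open ModularForm MatrixGroups Filter Topology ModularCurve Complex IntermediateField AlgebraicCurve
open CongruenceSubgroup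
open scoped Manifold Real
open Fermat.Agent.S24lib

namespace Fermat.Agent.ESlib

variable {K : Type} [Field K] [Algebra ℚ K] [IsAlgClosed K] [CharZero K] [Algebra K ℂ]
  [IsScalarTower ℚ K ℂ]

variable (N : ℕ) [NeZero N]

theorem isFF_FK : Fermat.Agent.S24RH.IsFF K (FK K N) :=
  ⟨J1 K N, transcendental_J1 N, finiteDimensional_J1 N⟩

section general

variable {N}

/-- change of chart by `γ ↦ δ γ`, `δ ∈ Γ₀(N)`: same embedding -/
theorem chartEmb_ne_zero {c : ℂ → ℍ} (hc : IsChart N c) {f : FK K N} (hf : f ≠ 0) :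
    chartEmb K hc f ≠ 0 := (map_ne_zero (chartEmb K hc).toRingHom).2 hf

/-- a chart along which some function has non-zero order has a centre -/
theorem exists_place_of_chart {c : ℂ → ℍ} (hc : IsChart N c)
    (hnt : ∃ f : FK K N, f ≠ 0 ∧ (chartEmb K hc f).order ≠ 0) :
    ∃ v : Place K (FK K N), ∃ e : ℕ, 0 < e ∧
      ∀ f : FK K N, f ≠ 0 → (chartEmb K hc f).order = e * v.ord f :=
  exists_place_of_emb (chartEmb K hc) hnt

end general

section interior

theorem J1_sub_ne_zero (a : K) : J1 K N - algebraMap K (FK K N) a ≠ 0 := by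
  intro h
  exact transcendental_J1_sub (K := K) N a (h ▸ isAlgebraic_zero)

/-- the order of `j - j(τ₀)` at `τ₀` -/
theorem exists_order_jgerm (τ₀ : ℍ) (a : K) (ha : jfun τ₀ = algebraMap K ℂ a) :
    ∃ r : ℕ, 0 < r ∧ (taylor (jgerm τ₀) - PowerSeries.C (jfun τ₀)).order = r := by
  have hne : taylor (jgerm τ₀) - PowerSeries.C (jfun τ₀) ≠ 0 := by
    intro h0
    have h1 := chartEmb_cInt_sub (K := K) 1 1 τ₀ a ha
    rw [h0, map_zero] at h1
    exact chartEmb_ne_zero _ (J1_sub_ne_zero (K := K) 1 a) h1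
  obtain ⟨r, hr⟩ := ENat.ne_top_iff_exists.1 (PowerSeries.order_eq_top.not.2 hne)
  refine ⟨r, ?_, hr.symm⟩
  rcases Nat.eq_zero_or_pos r with h0 | h0
  · exfalso
    have hr' := hr.symm
    rw [h0, PowerSeries.order_eq_nat] at hr'
    apply hr'.1
    rw [map_sub, PowerSeries.coeff_zero_eq_constantCoeff_apply, constantCoeff_taylor,
      PowerSeries.coeff_zero_C]
    simp [jgerm]
  · exact h0

variable (K) in
/-- the embeddings at an interior point, indexed by the cosets -/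
noncomputable def embInt (τ₀ : ℍ) (x : SL(2, ℤ) ⧸ Gamma0 N) : FK K N →ₐ[K] LaurentSeries ℂ :=
  chartEmb K (isChart_cInt N (x.out)⁻¹ τ₀)

theorem embInt_injective (τ₀ : ℍ) : Function.Injective (embInt K N τ₀) := by
  intro x y hxy
  have h := mem_Gamma0_of_chartEmb_eq (z := fun t => ofComplex ((τ₀ : ℂ) + t))
    (isChart_cInt N (x.out)⁻¹ τ₀) (isChart_cInt N (y.out)⁻¹ τ₀) hxy
  rw [inv_inv] at h
  rw [← QuotientGroup.out_eq' x, ← QuotientGroup.out_eq' y]
  exact (QuotientGroup.eq.2 h).symm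

/-- invariance of orders under `γ ↦ δ γ g⁻¹`, `δ ∈ Γ₀(N)`, `g` fixing `τ₀` -/
theorem order_chartEmb_cInt_mul (τ₀ : ℍ) (γ γ' g : SL(2, ℤ)) (hg : g • τ₀ = τ₀)
    (h : γ' * g * γ⁻¹ ∈ Gamma0 N) (f : FK K N) (hf : f ≠ 0) :
    (chartEmb K (isChart_cInt N γ' τ₀) f).order = (chartEmb K (isChart_cInt N γ τ₀) f).order ∧
      (chartEmb K (isChart_cInt N γ' τ₀) f).leadingCoeff =
        (denom (g⁻¹ : SL(2, ℤ)) τ₀ ^ (-2 : ℤ)) ^ (chartEmb K (isChart_cInt N γ τ₀) f).order *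
          (chartEmb K (isChart_cInt N γ τ₀) f).leadingCoeff := by
  have hg' : g⁻¹ • τ₀ = τ₀ := by
    conv_lhs => rw [← hg]
    rw [inv_smul_smul]
  have := chartEmb_comp (K := K) (isChart_cInt N γ τ₀) (isChart_cInt N γ' τ₀)
    (analyticAt_mob g⁻¹ τ₀) (mob_zero hg') ?_ ?_ f hf
  · rwa [deriv_mob] at this
  · rw [deriv_mob]
    exact zpow_ne_zero _ (denom_ne_zero _ _)
  · refine Eventually.of_forall fun t => ⟨γ' * g * γ⁻¹, h, ?_⟩
    rw [cInt, cInt, ofComplex_add_mob]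
    simp only [mul_smul, inv_smul_smul, smul_inv_smul]

theorem embInt_smul (τ₀ : ℍ) (g : SL(2, ℤ)) (hg : g • τ₀ = τ₀) (x : SL(2, ℤ) ⧸ Gamma0 N)
    (f : FK K N) : (embInt K N τ₀ (g • x) f).order = (embInt K N τ₀ x f).order := by
  by_cases hf : f = 0
  · rw [hf, map_zero, map_zero]
  obtain ⟨e, he⟩ := QuotientGroup.mk_out_eq_mul (Gamma0 N) (g * x.out)
  have hgx : g • x = ((g * x.out : SL(2, ℤ)) : SL(2, ℤ) ⧸ Gamma0 N) := by
    conv_lhs => rw [← QuotientGroup.out_eq' x]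
    rfl
  refine (order_chartEmb_cInt_mul N τ₀ (x.out)⁻¹ ((g • x).out)⁻¹ g hg ?_ f hf).1
  rw [hgx, he]
  have : (g * x.out * (e : SL(2, ℤ)))⁻¹ * g * (x.out)⁻¹⁻¹ = (e : SL(2, ℤ))⁻¹ := by group
  rw [this]
  exact inv_mem e.2

/-- an element `ε` fixing `τ₁` with `γ ε γ⁻¹ ∈ Γ₀(N)` constrains the orders along the chart -/
theorem pow_order_eq_one_of_fixed (τ₁ : ℍ) (γ ε : SL(2, ℤ)) (hfix : ε • τ₁ = τ₁)
    (hε : γ * ε * γ⁻¹ ∈ Gamma0 N) (f : FK K N) (hf : f ≠ 0) :
    (denom ε τ₁ ^ (-2 : ℤ)) ^ (chartEmb K (isChart_cInt N γ τ₁) f).order = 1 := by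
  have hfix' : ε⁻¹ • τ₁ = τ₁ := by
    conv_lhs => rw [← hfix]
    rw [inv_smul_smul]
  have hε' : γ * ε⁻¹ * γ⁻¹ ∈ Gamma0 N := by
    have : γ * ε⁻¹ * γ⁻¹ = (γ * ε * γ⁻¹)⁻¹ := by group
    rw [this]
    exact inv_mem hε
  have h := (order_chartEmb_cInt_mul N τ₁ γ γ ε⁻¹ hfix' hε' f hf).2
  rw [inv_inv] at h
  have hlc : (chartEmb K (isChart_cInt N γ τ₁) f).leadingCoeff ≠ 0 :=
    HahnSeries.leadingCoeff_ne_zero.2 (chartEmb_ne_zero _ hf)
  exact (mul_right_cancel₀ hlc (by rw [one_mul]; exact h)).symm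

theorem embInt_stab (τ₀ : ℍ) (g : SL(2, ℤ)) (hg : g • τ₀ = τ₀) (r : ℕ)
    (hprim : IsPrimitiveRoot ((denom g τ₀) ^ (-2 : ℤ)) r)
    (x : SL(2, ℤ) ⧸ Gamma0 N) (k : ℕ) (hk : g ^ k • x = x) (f : FK K N) :
    (r : ℤ) ∣ k * (embInt K N τ₀ x f).order := by
  by_cases hf : f = 0
  · rw [hf, map_zero, HahnSeries.order_zero, mul_zero]
    exact dvd_zero _
  have hgk : (g ^ k) • τ₀ = τ₀ := by
    clear hk
    induction k with
    | zero => simp
    | succ k ih => rw [pow_succ, mul_smul, hg, ih]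
  have hδ : (x.out)⁻¹ * g ^ k * (x.out)⁻¹⁻¹ ∈ Gamma0 N := by
    rw [inv_inv, mul_assoc, ← QuotientGroup.eq]
    have h1 : ((g ^ k * x.out : SL(2, ℤ)) : SL(2, ℤ) ⧸ Gamma0 N) =
        g ^ k • ((x.out : SL(2, ℤ)) : SL(2, ℤ) ⧸ Gamma0 N) := rfl
    rw [h1, QuotientGroup.out_eq' x, hk]
  have h1 := pow_order_eq_one_of_fixed N τ₀ (x.out)⁻¹ (g ^ k) hgk hδ f hf
  rw [denom_pow_of_fixed hg, ← zpow_natCast, ← zpow_mul, ← zpow_mul,
    show (k : ℤ) * (-2 * (chartEmb K (isChart_cInt N (x.out)⁻¹ τ₀) f).order) =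
      -2 * (k * (chartEmb K (isChart_cInt N (x.out)⁻¹ τ₀) f).order) by ring, zpow_mul] at h1
  exact (hprim.zpow_eq_one_iff_dvd _).1 h1

/-- every interior chart at a point with `j(τ₀) ∈ K` has a centre, which is a zero of `j - a` -/
theorem exists_place_cInt (γ : SL(2, ℤ)) (τ₀ : ℍ) (a : K) (ha : jfun τ₀ = algebraMap K ℂ a) :
    ∃ v : Place K (FK K N), ∃ e : ℕ, 0 < e ∧ 0 < v.ord (J1 K N - algebraMap K (FK K N) a) ∧
      ∀ f : FK K N, f ≠ 0 → (chartEmb K (isChart_cInt N γ τ₀) f).order = e * v.ord f := by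
  obtain ⟨r, hr0, hr⟩ := exists_order_jgerm τ₀ a ha
  have hu := (J1_sub_ne_zero (K := K) N a)
  have ho : (chartEmb K (isChart_cInt N γ τ₀) (J1 K N - algebraMap K (FK K N) a)).order = r := by
    rw [chartEmb_cInt_sub N _ _ _ ha]
    exact order_ofPowerSeries_eq hr
  obtain ⟨v, e, he, hv⟩ := exists_place_of_chart (K := K) (isChart_cInt N γ τ₀)
    ⟨_, hu, by rw [ho]; exact_mod_cast hr0.ne'⟩
  refine ⟨v, e, he, ?_, hv⟩
  have h1 := hv _ hu
  rw [ho] at h1
  have h2 : (0 : ℤ) < e := by exact_mod_cast he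
  have h3 : (0 : ℤ) < r := by exact_mod_cast hr0
  rw [h1] at h3
  exact (mul_pos_iff_of_pos_left h2).1 h3

/-- every zero of `j - a` is the centre of an interior chart at any given `τ₀` with `j(τ₀) = a` -/
theorem exists_cInt_of_place (v : Place K (FK K N)) (a : K)
    (hv : 0 < v.ord (J1 K N - algebraMap K (FK K N) a)) (τ₀ : ℍ)
    (ha : jfun τ₀ = algebraMap K ℂ a) :
    ∃ x : SL(2, ℤ) ⧸ Gamma0 N, ∃ e : ℕ, 0 < e ∧
      ∀ f : FK K N, f ≠ 0 → (embInt K N τ₀ x f).order = e * v.ord f := by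
  classical
  obtain ⟨r, hr0, hr⟩ := exists_order_jgerm τ₀ a ha
  have hfd : FiniteDimensional K⟮J1 K N - algebraMap K (FK K N) a⟯ (FK K N) := by
    rw [adjoin_sub_algebraMap]
    exact finiteDimensional_J1 N
  letI : Fintype (SL(2, ℤ) ⧸ Gamma0 N) := Fintype.ofFinite _
  refine exists_emb_of_place' (J1 K N - algebraMap K (FK K N) a) (transcendental_J1_sub N a)
    (embInt K N τ₀) (embInt_injective N τ₀) ?_ ?_ ?_ v hv
  · rw [adjoin_sub_algebraMap, finrank_J1, ← Nat.card_eq_fintype_card, S20lib.card_quot_Gamma0]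
  · intro x y
    show chartEmb K _ _ = chartEmb K _ _
    rw [chartEmb_cInt_sub N _ _ _ ha, chartEmb_cInt_sub N _ _ _ ha]
  · intro x
    show 0 < (chartEmb K _ _).order
    rw [chartEmb_cInt_sub N _ _ _ ha, order_ofPowerSeries_eq hr]
    exact_mod_cast hr0

/-- exact multiplicity: if `g` fixes `τ₀` with primitive `r`-th root of unity as multiplier, where
`r` is the order of `j - j(τ₀)` at `τ₀`, then `e * (size of the g-orbit of x) = r`. -/
theorem mul_minimalPeriod_eq (τ₀ : ℍ) (a : K) (ha : jfun τ₀ = algebraMap K ℂ a)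
    (g : SL(2, ℤ)) (hg : g • τ₀ = τ₀) (r : ℕ)
    (hr : (taylor (jgerm τ₀) - PowerSeries.C (jfun τ₀)).order = r)
    (hprim : IsPrimitiveRoot ((denom g τ₀) ^ (-2 : ℤ)) r)
    (x : SL(2, ℤ) ⧸ Gamma0 N) (v : Place K (FK K N)) (e : ℕ) (he : 0 < e)
    (hv : ∀ f : FK K N, f ≠ 0 → (embInt K N τ₀ x f).order = e * v.ord f) :
    e * Function.minimalPeriod (g • ·) x = r := by
  have hfd : FiniteDimensional K⟮J1 K N - algebraMap K (FK K N) a⟯ (FK K N) := by
    rw [adjoin_sub_algebraMap]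
    exact finiteDimensional_J1 N
  have hX : Nat.card (SL(2, ℤ) ⧸ Gamma0 N) =
      Module.finrank K⟮J1 K N - algebraMap K (FK K N) a⟯ (FK K N) := by
    rw [adjoin_sub_algebraMap, finrank_J1, S20lib.card_quot_Gamma0]
  obtain ⟨r', hr0, hr'⟩ := exists_order_jgerm τ₀ a ha
  have hrr : r' = r := by
    rw [hr] at hr'
    exact_mod_cast hr'.symm
  subst hrr
  have hord : ∀ x, (embInt K N τ₀ x (J1 K N - algebraMap K (FK K N) a)).order = r' := by
    intro x
    show (chartEmb K _ _).order = _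
    rw [chartEmb_cInt_sub N _ _ _ ha]
    exact order_ofPowerSeries_eq hr
  have key := ord_eq_minimalPeriod (J1 K N - algebraMap K (FK K N) a) (transcendental_J1_sub N a)
    hX (embInt K N τ₀) (embInt_injective N τ₀) (fun x y => by
      show chartEmb K _ _ = chartEmb K _ _
      rw [chartEmb_cInt_sub N _ _ _ ha, chartEmb_cInt_sub N _ _ _ ha]) r' hr0 hord g
    (embInt_smul N τ₀ g hg) (embInt_stab N τ₀ g hg r' hprim) x v e he hv
  have h1 := hv _ (J1_sub_ne_zero (K := K) N a)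
  rw [hord, key] at h1
  exact_mod_cast h1.symm

end interior

section cusp

variable (K) in
/-- the embeddings at the cusps, indexed by the cosets -/
noncomputable def embCusp (x : SL(2, ℤ) ⧸ Gamma0 N) : FK K N →ₐ[K] LaurentSeries ℂ :=
  chartEmb K (isChart_cCusp N (x.out)⁻¹)

theorem embCusp_injective : Function.Injective (embCusp K N) := by
  intro x y hxy
  have := mem_Gamma0_of_chartEmb_eq (N := N)
    (z := fun q => ofComplex (Function.Periodic.invQParam N q))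
    (isChart_cCusp N (x.out)⁻¹) (isChart_cCusp N (y.out)⁻¹) hxy
  rw [inv_inv] at this
  rw [← QuotientGroup.out_eq' x, ← QuotientGroup.out_eq' y]
  exact (QuotientGroup.eq.2 this).symm

/-- change of cusp chart `γ ↦ δ γ T ^ k`, `δ ∈ Γ₀(N)` -/
theorem order_chartEmb_cCusp_mul (γ γ' : SL(2, ℤ)) (k : ℤ)
    (h : γ' * (γ * ModularGroup.T ^ k)⁻¹ ∈ Gamma0 N) (f : FK K N) (hf : f ≠ 0) :
    (chartEmb K (isChart_cCusp N γ') f).order = (chartEmb K (isChart_cCusp N γ) f).order ∧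
      (chartEmb K (isChart_cCusp N γ') f).leadingCoeff =
        (Complex.exp (2 * π * I / N) ^ k) ^ (chartEmb K (isChart_cCusp N γ) f).order *
          (chartEmb K (isChart_cCusp N γ) f).leadingCoeff := by
  have := chartEmb_comp (K := K) (isChart_cCusp N γ) (isChart_cCusp N γ')
    (analyticAt_rot N k) (rot_zero N k) (deriv_rot_ne_zero N k) ?_ f hf
  · rwa [deriv_rot] at this
  · filter_upwards [cCusp_T_zpow N γ k] with q hq
    obtain ⟨δ, hδ, hq⟩ := hq
    refine ⟨γ' * (γ * ModularGroup.T ^ k)⁻¹ * δ, mul_mem h hδ, ?_⟩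
    have h1 : cCusp N γ' q = (γ' * (γ * ModularGroup.T ^ k)⁻¹) • cCusp N (γ * ModularGroup.T ^ k) q := by
      rw [← cCusp_mul, inv_mul_cancel_right]
    rw [h1, hq, ← mul_smul]
    rfl

theorem embCusp_smul (x : SL(2, ℤ) ⧸ Gamma0 N) (f : FK K N) :
    (embCusp K N (ModularGroup.T • x) f).order = (embCusp K N x f).order := by
  by_cases hf : f = 0
  · rw [hf, map_zero, map_zero]
  obtain ⟨e₀, he₀⟩ := QuotientGroup.mk_out_eq_mul (Gamma0 N) (ModularGroup.T * x.out)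
  have hTx : ModularGroup.T • x = ((ModularGroup.T * x.out : SL(2, ℤ)) : SL(2, ℤ) ⧸ Gamma0 N) := by
    conv_lhs => rw [← QuotientGroup.out_eq' x]
    rfl
  refine (order_chartEmb_cCusp_mul N (x.out)⁻¹ ((ModularGroup.T • x).out)⁻¹ (-1) ?_ f hf).1
  rw [hTx, he₀]
  have : (ModularGroup.T * x.out * (e₀ : SL(2, ℤ)))⁻¹ * ((x.out)⁻¹ * ModularGroup.T ^ (-1 : ℤ))⁻¹ =
      (e₀ : SL(2, ℤ))⁻¹ := by
    rw [zpow_neg_one]; group
  rw [this]
  exact inv_mem e₀.2

/-- a parabolic element `γ T ^ k γ⁻¹ ∈ Γ₀(N)` constrains the orders along the cusp chart -/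
theorem exp_pow_order_eq_one (γ : SL(2, ℤ)) (k : ℤ)
    (h : γ * ModularGroup.T ^ k * γ⁻¹ ∈ Gamma0 N) (f : FK K N) (hf : f ≠ 0) :
    (Complex.exp (2 * π * I / N) ^ k) ^ (chartEmb K (isChart_cCusp N γ) f).order = 1 := by
  have h' : γ * (γ * ModularGroup.T ^ (-k))⁻¹ ∈ Gamma0 N := by
    have : γ * (γ * ModularGroup.T ^ (-k))⁻¹ = γ * ModularGroup.T ^ k * γ⁻¹ := by
      rw [zpow_neg]; group
    rw [this]
    exact h
  have h1 := (order_chartEmb_cCusp_mul N γ γ (-k) h' f hf).2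
  have hlc : (chartEmb K (isChart_cCusp N γ) f).leadingCoeff ≠ 0 :=
    HahnSeries.leadingCoeff_ne_zero.2 (chartEmb_ne_zero _ hf)
  have h2 : (Complex.exp (2 * π * I / N) ^ (-k)) ^ (chartEmb K (isChart_cCusp N γ) f).order = 1 :=
    (mul_right_cancel₀ hlc (by rw [one_mul]; exact h1)).symm
  rw [zpow_neg, inv_zpow, inv_eq_one] at h2
  exact h2

theorem embCusp_stab (x : SL(2, ℤ) ⧸ Gamma0 N) (k : ℕ) (hk : ModularGroup.T ^ k • x = x)
    (f : FK K N) : (N : ℤ) ∣ k * (embCusp K N x f).order := by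
  by_cases hf : f = 0
  · rw [hf, map_zero, HahnSeries.order_zero, mul_zero]
    exact dvd_zero _
  have hδ : (x.out)⁻¹ * ModularGroup.T ^ (k : ℤ) * (x.out)⁻¹⁻¹ ∈ Gamma0 N := by
    rw [inv_inv, mul_assoc, ← QuotientGroup.eq, zpow_natCast]
    have h1 : ((ModularGroup.T ^ k * x.out : SL(2, ℤ)) : SL(2, ℤ) ⧸ Gamma0 N) =
        ModularGroup.T ^ k • ((x.out : SL(2, ℤ)) : SL(2, ℤ) ⧸ Gamma0 N) := rfl
    rw [h1, QuotientGroup.out_eq' x, hk]
  have h1 := exp_pow_order_eq_one N (x.out)⁻¹ k hδ f hf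
  rw [← zpow_mul, (Complex.isPrimitiveRoot_exp N (NeZero.ne N)).zpow_eq_one_iff_dvd] at h1
  exact h1

/-- every cusp chart has a centre, which is a pole of `j` -/
theorem exists_place_cCusp (γ : SL(2, ℤ)) :
    ∃ v : Place K (FK K N), ∃ e : ℕ, 0 < e ∧ v.ord (J1 K N) < 0 ∧
      ∀ f : FK K N, f ≠ 0 → (chartEmb K (isChart_cCusp N γ) f).order = e * v.ord f := by
  have hN : (0 : ℤ) < N := by exact_mod_cast Nat.pos_of_ne_zero (NeZero.ne N)
  have hu : (J1 K N)⁻¹ ≠ 0 := inv_ne_zero (J1_ne_zero N)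
  have ho := order_chartEmb_cCusp_J1_inv (K := K) N γ
  obtain ⟨v, e, he, hv⟩ := exists_place_of_chart (K := K) (isChart_cCusp N γ)
    ⟨_, hu, by rw [ho]; exact hN.ne'⟩
  refine ⟨v, e, he, ?_, hv⟩
  have h1 := hv _ hu
  rw [ho, Place.ord_inv] at h1
  have h2 : (0 : ℤ) < e := by exact_mod_cast he
  rw [h1] at hN
  have := (mul_pos_iff_of_pos_left h2).1 hN
  omega

/-- every pole of `j` is the centre of a cusp chart -/
theorem exists_cCusp_of_place (v : Place K (FK K N)) (hv : v.ord (J1 K N) < 0) :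
    ∃ x : SL(2, ℤ) ⧸ Gamma0 N, ∃ e : ℕ, 0 < e ∧
      ∀ f : FK K N, f ≠ 0 → (embCusp K N x f).order = e * v.ord f := by
  classical
  have hN : (0 : ℤ) < N := by exact_mod_cast Nat.pos_of_ne_zero (NeZero.ne N)
  have hfd : FiniteDimensional K⟮(J1 K N)⁻¹⟯ (FK K N) := by
    rw [adjoin_inv_eq]
    exact finiteDimensional_J1 N
  letI : Fintype (SL(2, ℤ) ⧸ Gamma0 N) := Fintype.ofFinite _
  refine exists_emb_of_place' (J1 K N)⁻¹ (transcendental_J1_inv N)
    (embCusp K N) (embCusp_injective N) ?_ ?_ ?_ v (by rw [Place.ord_inv]; omega)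
  · rw [adjoin_inv_eq, finrank_J1, ← Nat.card_eq_fintype_card, S20lib.card_quot_Gamma0]
  · intro x y
    show chartEmb K _ _ = chartEmb K _ _
    rw [map_inv₀, map_inv₀, chartEmb_cCusp_J1, chartEmb_cCusp_J1]
  · intro x
    show 0 < (chartEmb K _ _).order
    rw [order_chartEmb_cCusp_J1_inv]
    exact hN

/-- exact multiplicity at a cusp: `e * width = N` -/
theorem mul_minimalPeriod_cusp_eq (x : SL(2, ℤ) ⧸ Gamma0 N) (v : Place K (FK K N)) (e : ℕ)
    (he : 0 < e) (hv : ∀ f : FK K N, f ≠ 0 → (embCusp K N x f).order = e * v.ord f) :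
    e * Function.minimalPeriod (ModularGroup.T • ·) x = N := by
  have hfd : FiniteDimensional K⟮(J1 K N)⁻¹⟯ (FK K N) := by
    rw [adjoin_inv_eq]
    exact finiteDimensional_J1 N
  have key := ord_eq_minimalPeriod (J1 K N)⁻¹ (transcendental_J1_inv N)
    (X := SL(2, ℤ) ⧸ Gamma0 N)
    (by rw [S20lib.card_quot_Gamma0, adjoin_inv_eq, finrank_J1])
    (embCusp K N) (embCusp_injective N) (fun x y => by
      show chartEmb K _ _ = chartEmb K _ _
      rw [map_inv₀, map_inv₀, chartEmb_cCusp_J1, chartEmb_cCusp_J1]) N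
    (Nat.pos_of_ne_zero (NeZero.ne N)) (fun x => order_chartEmb_cCusp_J1_inv N _)
    (G := SL(2, ℤ)) ModularGroup.T (embCusp_smul N) (embCusp_stab N) x v e he hv
  have h1 := hv _ (inv_ne_zero (J1_ne_zero (K := K) N))
  have h2 : (embCusp K N x (J1 K N)⁻¹).order = N := order_chartEmb_cCusp_J1_inv N _
  rw [h2, key] at h1
  exact_mod_cast h1.symm

end cusp

/-- every place of `FK K N` is the centre of a chart -/
theorem exists_chart_of_place (v : Place K (FK K N)) :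
    (∃ x : SL(2, ℤ) ⧸ Gamma0 N, ∃ e : ℕ, 0 < e ∧
      ∀ f : FK K N, f ≠ 0 → (embCusp K N x f).order = e * v.ord f) ∨
    (∃ (τ₀ : ℍ) (x : SL(2, ℤ) ⧸ Gamma0 N) (e : ℕ), 0 < e ∧
      ∀ f : FK K N, f ≠ 0 → (embInt K N τ₀ x f).order = e * v.ord f) := by
  rcases Fermat.Agent.S24RH.pole_or_fibre (isFF_FK N) v (transcendental_J1 (K := K) N) with h | ⟨a, ha⟩
  · exact Or.inl (exists_cCusp_of_place N v h)
  · obtain ⟨τ₀, hτ⟩ := JSurj.surjective_E4_cube_div_disc (algebraMap K ℂ a)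
    exact Or.inr ⟨τ₀, exists_cInt_of_place N v a ha τ₀ hτ⟩

end Fermat.Agent.ESlib
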