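import Fermat.Agent.ES.Dict.Annih
import Fermat.Agent.ES.Dict.ChartEmb

/-!
# ES library, part S: holomorphic `Γ₀(N)`-invariant functions belong to the function field

`exists_evH_of_invariant`: a holomorphic `Γ₀(N)`-invariant function on `ℍ` which is meromorphic
(with `K`-rational expansion) along all cusp charts is a quotient `evH P / evH Q`.
The proof is Lagrange interpolation at the conjugates of `j(Nτ)`.
-/

set_option autoImplicit false
set_option linter.unusedSectionVars false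
set_option linter.style.haveILetI false

open UpperHalfPlane hiding I
open ModularForm MatrixGroups Filter Topology ModularCurve Complex
open CongruenceSubgroup
open scoped Manifold Real
open Fermat.Agent.S24lib

namespace Fermat.Agent.ESlib

variable {K : Type} [Field K] [Algebra ℚ K] [IsAlgClosed K] [CharZero K] [Algebra K ℂ]
  [IsScalarTower ℚ K ℂ]

/-- holomorphic functions on `ℍ` form a domain -/
theorem mdiff_mul_eq_zero {f g : ℍ → ℂ} (hf : MDiff f) (hg : MDiff g)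
    (h : ∀ τ, f τ * g τ = 0) : f = 0 ∨ g = 0 := by
  have af := analyticAt_hgerm hf UpperHalfPlane.I
  rcases af.eventually_eq_zero_or_eventually_ne_zero with h0 | h0
  · left
    refine ident_cInt 1 UpperHalfPlane.I f hf ?_
    filter_upwards [h0.filter_mono nhdsWithin_le_nhds] with t ht
    rw [cInt, one_smul]
    exact ht
  · right
    refine ident_cInt 1 UpperHalfPlane.I g hg ?_
    filter_upwards [h0] with t ht
    rw [cInt, one_smul]
    have := h (ofComplex (((UpperHalfPlane.I : ℍ) : ℂ) + t))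
    exact (mul_eq_zero.1 this).resolve_left ht

theorem mdiff_prod_ne_zero {ι : Type*} (s : Finset ι) (f : ι → ℍ → ℂ)
    (hf : ∀ i ∈ s, MDiff (f i) ∧ f i ≠ 0) :
    MDiff (fun τ => ∏ i ∈ s, f i τ) ∧ (fun τ => ∏ i ∈ s, f i τ) ≠ 0 := by
  classical
  induction s using Finset.induction_on with
  | empty =>
    simp only [Finset.prod_empty]
    refine ⟨mdifferentiable_const, fun h => ?_⟩
    have := congrFun h UpperHalfPlane.I
    simp at this
  | insert a s ha ih =>
    have h1 := hf a (Finset.mem_insert_self a s)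
    have h2 := ih (fun i hi => hf i (Finset.mem_insert_of_mem hi))
    simp only [Finset.prod_insert ha]
    refine ⟨h1.1.mul h2.1, fun h => ?_⟩
    rcases mdiff_mul_eq_zero h1.1 h2.1 (fun τ => congrFun h τ) with h3 | h3
    · exact h1.2 h3
    · exact h2.2 h3

section lagrange

variable {X : Type*} [Fintype X] [DecidableEq X]

/-- the Lagrange-type polynomial `∑ₓ aₓ ∏_{y ≠ x} (T - b_y)` -/
noncomputable def lagr {R : Type*} [CommRing R] (a b : X → R) : Polynomial R :=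
  ∑ x, Polynomial.C (a x) * ∏ y ∈ Finset.univ.erase x, (Polynomial.X - Polynomial.C (b y))

theorem lagr_comp {R : Type*} [CommRing R] (a b : X → R) (σ : Equiv.Perm X) :
    lagr (a ∘ σ) (b ∘ σ) = lagr a b := by
  unfold lagr
  rw [← Equiv.sum_comp σ (fun x => Polynomial.C (a x) *
    ∏ y ∈ Finset.univ.erase x, (Polynomial.X - Polynomial.C (b y)))]
  refine Finset.sum_congr rfl fun x _ => ?_
  congr 1
  refine Finset.prod_equiv σ (fun i => ?_) (fun i _ => rfl)
  simp only [Finset.mem_erase, Finset.mem_univ, and_true, ne_eq, σ.injective.eq_iff]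

theorem lagr_map {R S : Type*} [CommRing R] [CommRing S] (φ : R →+* S) (a b : X → R) :
    (lagr a b).map φ = lagr (φ ∘ a) (φ ∘ b) := by
  unfold lagr
  rw [Polynomial.map_sum]
  refine Finset.sum_congr rfl fun x _ => ?_
  rw [Polynomial.map_mul, Polynomial.map_C, Polynomial.map_prod]
  congr 1
  refine Finset.prod_congr rfl fun y _ => ?_
  rw [Polynomial.map_sub, Polynomial.map_X, Polynomial.map_C]
  rfl

theorem lagr_eval {R : Type*} [CommRing R] (a b : X → R) (x₀ : X) :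
    (lagr a b).eval (b x₀) = a x₀ * ∏ y ∈ Finset.univ.erase x₀, (b x₀ - b y) := by
  unfold lagr
  rw [Polynomial.eval_finsetSum, Finset.sum_eq_single x₀]
  · rw [Polynomial.eval_mul, Polynomial.eval_C, Polynomial.eval_prod]
    congr 1
    refine Finset.prod_congr rfl fun y _ => ?_
    simp
  · intro x _ hx
    rw [Polynomial.eval_mul, Polynomial.eval_prod]
    have : ∏ y ∈ Finset.univ.erase x, (Polynomial.X - Polynomial.C (b y)).eval (b x₀) = 0 :=
      Finset.prod_eq_zero (Finset.mem_erase.2 ⟨hx.symm, Finset.mem_univ x₀⟩) (by simp)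
    rw [this, mul_zero]
  · intro h
    exact absurd (Finset.mem_univ x₀) h

end lagrange

variable (N : ℕ) [NeZero N]

variable (K) in
/-- evaluation at a point, on `SSring` -/
noncomputable def evS (τ : ℍ) : SSring K N →+* ℂ :=
  (Pi.evalRingHom (fun _ : ℍ => ℂ) τ).comp (SSring K N).subtype

theorem evH_aeval_X1 (Q : Polynomial K) (τ : ℍ) :
    evH K N (Polynomial.aeval (MvPolynomial.X ⟨1, one_dvd N⟩ : MvPolynomial (Dv N) K) Q) τ =
      Polynomial.aeval (jfun τ) Q := by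
  have h := Polynomial.aeval_algHom_apply ((Pi.evalAlgHom K (fun _ : ℍ => ℂ) τ).comp (evH K N))
    (MvPolynomial.X ⟨1, one_dvd N⟩ : MvPolynomial (Dv N) K) Q
  have h4 : ((Pi.evalAlgHom K (fun _ : ℍ => ℂ) τ).comp (evH K N))
      (MvPolynomial.X ⟨1, one_dvd N⟩ : MvPolynomial (Dv N) K) = jfun τ := by
    show evH K N (MvPolynomial.X ⟨1, one_dvd N⟩) τ = jfun τ
    simp only [evH, MvPolynomial.aeval_X]
    exact jd_one τ
  rw [h4] at h
  exact h.symm

/-- a polynomial over `SSring` whose coefficients are `SL₂(ℤ)`-invariant can be evaluated inside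
the image of `evH` -/
theorem exists_evH_of_poly (p : Polynomial (SSring K N))
    (hinv : ∀ (g : SL(2, ℤ)) (τ : ℍ), p.map (evS K N (g • τ)) = p.map (evS K N τ))
    (P₀ : MvPolynomial (Dv N) K) :
    ∃ R : MvPolynomial (Dv N) K, ∀ τ, evH K N R τ = (p.map (evS K N τ)).eval (evH K N P₀ τ) := by
  have hQ : ∀ k : ℕ, ∃ Q : Polynomial K, ∀ τ : ℍ,
      (p.coeff k : ℍ → ℂ) τ = Polynomial.aeval (jfun τ) Q := fun k =>
    levelOne_principle N _ (p.coeff k).2.1 (fun g τ => by
      have h2 := congrArg (fun p => Polynomial.coeff p k) (hinv g τ)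
      simp only [Polynomial.coeff_map] at h2
      exact h2) (p.coeff k).2.2.1 (p.coeff k).2.2.2
  choose Q hQ using hQ
  refine ⟨∑ k ∈ Finset.range (p.natDegree + 1),
    Polynomial.aeval (MvPolynomial.X ⟨1, one_dvd N⟩ : MvPolynomial (Dv N) K) (Q k) * P₀ ^ k, ?_⟩
  intro τ
  rw [Polynomial.eval_map, Polynomial.eval₂_eq_sum_range, map_sum, Finset.sum_apply]
  refine Finset.sum_congr rfl fun k _ => ?_
  rw [map_mul, map_pow, Pi.mul_apply, Pi.pow_apply, evH_aeval_X1, ← hQ]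
  rfl

/-- the conjugates of a function -/
noncomputable def conjFun (H : ℍ → ℂ) (x : SL(2, ℤ) ⧸ Gamma0 N) (τ : ℍ) : ℂ :=
  H ((x.out)⁻¹ • τ)

theorem conjFun_smul {H : ℍ → ℂ} (hinv : ∀ δ ∈ Gamma0 N, ∀ τ, H (δ • τ) = H τ) (g : SL(2, ℤ))
    (x : SL(2, ℤ) ⧸ Gamma0 N) (τ : ℍ) :
    conjFun N H (g⁻¹ • x) τ = conjFun N H x (g • τ) := by
  have h1 : g⁻¹ • x = ((g⁻¹ * x.out : SL(2, ℤ)) : SL(2, ℤ) ⧸ Gamma0 N) := by
    conv_lhs => rw [← QuotientGroup.out_eq' x]
    rfl
  obtain ⟨e0, he0⟩ := QuotientGroup.mk_out_eq_mul (Gamma0 N) (g⁻¹ * x.out)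
  simp only [conjFun]
  rw [h1, he0]
  have h2 : (g⁻¹ * x.out * (e0 : SL(2, ℤ)))⁻¹ • τ = ((e0 : SL(2, ℤ))⁻¹) • ((x.out)⁻¹ • (g • τ)) := by
    rw [← mul_smul, ← mul_smul]
    congr 1
    group
  rw [h2, hinv _ (inv_mem e0.2)]

theorem conjFun_one {H : ℍ → ℂ} (hinv : ∀ δ ∈ Gamma0 N, ∀ τ, H (δ • τ) = H τ) :
    conjFun N H ((1 : SL(2, ℤ)) : SL(2, ℤ) ⧸ Gamma0 N) = H := by
  ext τ
  obtain ⟨e0, he0⟩ := QuotientGroup.mk_out_eq_mul (Gamma0 N) 1
  simp only [conjFun]
  rw [he0, one_mul, hinv _ (inv_mem e0.2)]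

theorem conjFun_mem {H : ℍ → ℂ} (hH : MDiff H)
    (hmer : ∀ γ : SL(2, ℤ), MeromorphicAt (fun q => H (cCusp N γ q)) 0)
    (hK : ∀ γ : SL(2, ℤ), laurent (fun q => H (cCusp N γ q)) ∈ KRat K)
    (x : SL(2, ℤ) ⧸ Gamma0 N) : conjFun N H x ∈ SSring K N := by
  have h1 : (fun q => conjFun N H x (cCusp N 1 q)) = fun q => H (cCusp N (x.out)⁻¹ q) := by
    ext q
    simp only [conjFun, cCusp, one_smul]
  refine ⟨mdiff_comp_smul hH _, ?_, ?_⟩
  · rw [h1]; exact hmer _
  · rw [h1]; exact hK _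

/-- **Holomorphic invariant functions are in the function field.** -/
theorem exists_evH_of_invariant (H : ℍ → ℂ) (hH : MDiff H)
    (hinv : ∀ δ ∈ Gamma0 N, ∀ τ, H (δ • τ) = H τ)
    (hmer : ∀ γ : SL(2, ℤ), MeromorphicAt (fun q => H (cCusp N γ q)) 0)
    (hK : ∀ γ : SL(2, ℤ), laurent (fun q => H (cCusp N γ q)) ∈ KRat K) :
    ∃ P Q : MvPolynomial (Dv N) K, evH K N Q ≠ 0 ∧ ∀ τ, H τ * evH K N Q τ = evH K N P τ := by
  classical
  let X := SL(2, ℤ) ⧸ Gamma0 N
  letI : Fintype X := Fintype.ofFinite X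
  let PN : MvPolynomial (Dv N) K := MvPolynomial.X ⟨N, dvd_refl N⟩
  have hPN : ∀ τ, evH K N PN τ = jd N τ := fun τ => by
    simp only [PN, evH, MvPolynomial.aeval_X]
  have hθinv : ∀ δ ∈ Gamma0 N, ∀ τ, evH K N PN (δ • τ) = evH K N PN τ :=
    fun δ hδ τ => evH_Gamma0 N PN δ hδ τ
  let θ : X → SSring K N := fun x => ⟨thetaFun N PN x, thetaFun_mem N PN x⟩
  let Hx : X → SSring K N := fun x => ⟨conjFun N H x, conjFun_mem N hH hmer hK x⟩
  let x₀ : X := ((1 : SL(2, ℤ)) : X)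
  have hmapinv : ∀ (a : X → SSring K N),
      (∀ (g : SL(2, ℤ)) (x : X) (τ : ℍ), (a (g⁻¹ • x) : ℍ → ℂ) τ = (a x : ℍ → ℂ) (g • τ)) →
      ∀ (g : SL(2, ℤ)) (τ : ℍ), (lagr a θ).map (evS K N (g • τ)) = (lagr a θ).map (evS K N τ) := by
    intro a ha g τ
    rw [lagr_map, lagr_map, ← lagr_comp (evS K N τ ∘ a) (evS K N τ ∘ θ)
      (MulAction.toPerm g⁻¹ : Equiv.Perm X)]
    congr 1
    · funext x
      exact (ha g x τ).symm
    · funext x
      exact (thetaFun_smul N PN g x τ).symm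
  obtain ⟨P, hP⟩ := exists_evH_of_poly N (lagr Hx θ)
    (hmapinv Hx (fun g x τ => conjFun_smul N hinv g x τ)) PN
  obtain ⟨Q, hQ⟩ := exists_evH_of_poly N (lagr (fun _ => (1 : SSring K N)) θ)
    (hmapinv _ (fun g x τ => rfl)) PN
  have hθ0 : ∀ τ, evH K N PN τ = (evS K N τ ∘ θ) x₀ := by
    intro τ
    show _ = thetaFun N PN x₀ τ
    rw [thetaFun_one]
  have hQ' : ∀ τ, evH K N Q τ =
      ∏ y ∈ Finset.univ.erase x₀, (thetaFun N PN x₀ τ - thetaFun N PN y τ) := by
    intro τ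
    rw [hQ, lagr_map, hθ0, lagr_eval]
    simp only [Function.comp, map_one, one_mul]
    rfl
  have hP' : ∀ τ, evH K N P τ = H τ *
      ∏ y ∈ Finset.univ.erase x₀, (thetaFun N PN x₀ τ - thetaFun N PN y τ) := by
    intro τ
    rw [hP, lagr_map, hθ0, lagr_eval]
    have : (evS K N τ ∘ Hx) x₀ = H τ := by
      show conjFun N H x₀ τ = H τ
      rw [conjFun_one N hinv]
    rw [this]
    rfl
  refine ⟨P, Q, ?_, fun τ => by rw [hP', hQ']⟩
  have hne := (mdiff_prod_ne_zero (Finset.univ.erase x₀)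
    (fun y τ => thetaFun N PN x₀ τ - thetaFun N PN y τ) (fun y hy => ?_)).2
  · intro h0
    apply hne
    funext τ
    rw [← hQ', h0]
  · refine ⟨(thetaFun_mem (K := K) N PN x₀).1.sub (thetaFun_mem (K := K) N PN y).1, fun h0 => ?_⟩
    apply (Finset.mem_erase.1 hy).1
    have h1 : (y.out)⁻¹ ∈ Gamma0 N := by
      refine mem_Gamma0_of_jd_eq N _ fun τ => ?_
      have h2 := congrFun h0 τ
      simp only [Pi.zero_apply] at h2
      rw [thetaFun_one, sub_eq_zero] at h2
      rw [← hPN, ← hPN, h2]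
      rfl
    rw [← QuotientGroup.out_eq' y]
    exact QuotientGroup.eq.2 (by simpa using h1)

/-- for `K = ℂ` every Laurent series is rational -/
theorem mem_KRat_complex (s : LaurentSeries ℂ) : s ∈ KRat ℂ :=
  mem_KRat.2 ⟨s, by ext k; simp⟩

end Fermat.Agent.ESlib
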