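import Fermat.Agent.ES.Dict.KRatCusp
import Fermat.Prelude.Thm_ModularCurve_coeffMap_qExpand

/-!
# S24 library, task G5: polynomials in the generators, analytic versus formal
-/

set_option autoImplicit false
set_option linter.unusedSectionVars false
set_option linter.unusedSectionVars false

open UpperHalfPlane hiding I
open ModularForm MatrixGroups Filter Topology ModularCurve Complex
open scoped Manifold Real

open Fermat.Agent.S24lib

namespace Fermat.Agent.ESlib

variable {K : Type} [Field K] [Algebra ℚ K] [IsAlgClosed K] [CharZero K] [Algebra K ℂ]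
  [IsScalarTower ℚ K ℂ]

variable (N : ℕ) [NeZero N]

theorem evH_C (a : K) : evH K N (MvPolynomial.C a) = fun _ => algebraMap K ℂ a := by
  rw [evH, MvPolynomial.aeval_C]
  rfl

theorem evH_X (d : Dv N) : evH K N (MvPolynomial.X d) = jd d.1 := by
  rw [evH, MvPolynomial.aeval_X]

theorem mdiff_evH (P : MvPolynomial (Dv N) K) : MDiff (evH K N P) := by
  induction P using MvPolynomial.induction_on with
  | C a => rw [evH_C]; exact mdifferentiable_const
  | add p q hp hq => rw [map_add]; exact hp.add hq
  | mul_X p d hp => rw [map_mul, evH_X]; exact hp.mul (mdiff_jd d.1)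

theorem evH_Gamma0 (P : MvPolynomial (Dv N) K) (δ : SL(2, ℤ))
    (hδ : δ ∈ CongruenceSubgroup.Gamma0 N) (τ : ℍ) : evH K N P (δ • τ) = evH K N P τ := by
  induction P using MvPolynomial.induction_on with
  | C a => rw [evH_C]
  | add p q hp hq => rw [map_add, Pi.add_apply, Pi.add_apply, hp, hq]
  | mul_X p d hp => rw [map_mul, evH_X, Pi.mul_apply, Pi.mul_apply, hp, jd_Gamma0 N d.2 δ hδ]

variable {N}

theorem _root_.Fermat.Agent.S24lib.IsChart.mer_evHK {c : ℂ → ℍ} (hc : IsChart N c) (P : MvPolynomial (Dv N) K) :
    MeromorphicAt (fun t => evH K N P (c t)) 0 := by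
  induction P using MvPolynomial.induction_on with
  | C a => rw [evH_C]; exact MeromorphicAt.const _ _
  | add p q hp hq => rw [map_add]; exact hp.add hq
  | mul_X p d hp => rw [map_mul, evH_X]; exact hp.mul (hc.mer d)

theorem algebraMap_Kb_laurent (a : K) :
    algebraMap K (LaurentSeries ℂ) a = HahnSeries.C (algebraMap K ℂ a) := by
  rw [HahnSeries.algebraMap_apply', PowerSeries.algebraMap_apply, HahnSeries.ofPowerSeries_C]

/-- `P ↦ laurent (evH P ∘ c)` is the `K`-algebra map sending `X d` to `laurent (jd d ∘ c)` -/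
theorem _root_.Fermat.Agent.S24lib.IsChart.laurent_evHK {c : ℂ → ℍ} (hc : IsChart N c) (P : MvPolynomial (Dv N) K) :
    laurent (fun t => evH K N P (c t)) =
      MvPolynomial.aeval (fun d : Dv N => laurent (fun t => jd d.1 (c t))) P := by
  induction P using MvPolynomial.induction_on with
  | C a =>
    rw [evH_C, MvPolynomial.aeval_C, algebraMap_Kb_laurent]
    exact laurent_const _
  | add p q hp hq =>
    rw [map_add, map_add, ← hp, ← hq]
    exact laurent_add (hc.mer_evHK p) (hc.mer_evHK q)
  | mul_X p d hp =>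
    rw [map_mul, map_mul, MvPolynomial.aeval_X, ← hp, evH_X]
    exact laurent_mul (hc.mer_evHK p) (hc.mer d)

theorem _root_.Fermat.Agent.S24lib.IsChart.laurent_evHK_eq_zero_iff {c : ℂ → ℍ} (hc : IsChart N c)
    (P : MvPolynomial (Dv N) K) :
    laurent (fun t => evH K N P (c t)) = 0 ↔ evH K N P = 0 := by
  rw [laurent_eq_zero_iff (hc.mer_evHK P)]
  constructor
  · intro h
    exact hc.ident _ (mdiff_evH N P) h
  · intro h
    rw [h]
    exact Eventually.of_forall fun _ => rfl

variable (N)

theorem laurent_evH_cCusp_mem_KRat (P : MvPolynomial (Dv N) K) (γ : SL(2, ℤ)) :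
    laurent (fun q => evH K N P (cCusp N γ q)) ∈ KRat K := by
  rw [(isChart_cCusp N γ).laurent_evHK]
  induction P using MvPolynomial.induction_on with
  | C a => rw [MvPolynomial.aeval_C]; exact (KRat K).algebraMap_mem a
  | add p q hp hq => rw [map_add]; exact (KRat K).add_mem hp hq
  | mul_X p d hp =>
    rw [map_mul, MvPolynomial.aeval_X]
    exact (KRat K).mul_mem hp (laurent_jd_cCusp_mem_KRat N d γ)

theorem twist_one (S : LaurentSeries ℂ) : twist 1 S = S := by
  ext k
  simp

theorem coeffMap_injective {R S : Type*} [CommRing R] [CommRing S] (f : R →+* S)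
    (hf : Function.Injective f) : Function.Injective (coeffMap f) := by
  intro x y hxy
  ext k
  apply hf
  rw [← coeffMap_coeff, ← coeffMap_coeff, hxy]

/-- comparison of the analytic expansion at `∞` (in `q_N = q^{1/N}`) with the formal one -/
theorem laurent_evH_cCusp_one (P : MvPolynomial (Dv N) K) :
    laurent (fun q => evH K N P (cCusp N 1 q)) =
      qExpand ℂ N (coeffMap (algebraMap K ℂ) (evF K N P : LaurentSeries K)) := by
  have hc := isChart_cCusp N 1
  induction P using MvPolynomial.induction_on with
  | C a =>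
    rw [evH_C, evF, MvPolynomial.aeval_C]
    have h1 : ((algebraMap K (FK K N) a : FK K N) : LaurentSeries K) = HahnSeries.single 0 a := by
      rw [← algebraMap_laurentSeries_eq_single]
      rfl
    rw [h1, coeffMap_single, qExpand_single, mul_zero]
    exact laurent_const _
  | add p q hp hq =>
    rw [map_add, map_add]
    have h1 : ((evF K N p + evF K N q : FK K N) : LaurentSeries K) =
      (evF K N p : LaurentSeries K) + (evF K N q : LaurentSeries K) := rfl
    rw [h1, map_add, map_add, ← hp, ← hq]
    exact laurent_add (hc.mer_evHK p) (hc.mer_evHK q)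
  | mul_X p d hp =>
    rw [map_mul, map_mul]
    have h1 : ((evF K N p * evF K N (MvPolynomial.X d) : FK K N) : LaurentSeries K) =
      (evF K N p : LaurentSeries K) * (evF K N (MvPolynomial.X d) : LaurentSeries K) := rfl
    rw [h1, map_mul, map_mul, ← hp, evH_X]
    have h2 : laurent (fun q => jd d.1 (cCusp N 1 q)) =
        qExpand ℂ N (coeffMap (algebraMap K ℂ) (evF K N (MvPolynomial.X d) : LaurentSeries K)) := by
      have hdN : NeZero (d.1 * N) := ⟨mul_ne_zero (NeZero.ne d.1) (NeZero.ne N)⟩
      have hNd : NeZero (N * d.1) := ⟨mul_ne_zero (NeZero.ne N) (NeZero.ne d.1)⟩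
      have hev : (fun q => jd d.1 (cCusp N 1 q)) =ᶠ[𝓝[≠] 0] fun q => jcusp (1 * q ^ (d.1 * N)) := by
        filter_upwards [jd_cCusp_one N d.1] with q hq
        rw [hq, one_mul]
      rw [laurent_congr hev, (laurent_comp_mul_pow meromorphicAt_jcusp one_ne_zero (d.1 * N)).2,
        twist_one, laurent_jcusp, evF, MvPolynomial.aeval_X]
      show _ = qExpand ℂ N (coeffMap (algebraMap K ℂ) (coeffEmb K (qExpand ℚ d.1 jq)))
      rw [coeffEmb, coeffMap_coeffMap, coeffMap_qExpand, qExpand_qExpand,
        qExpand_congr (mul_comm d.1 N)]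
      congr 1
      exact coeffMap_congr (IsScalarTower.algebraMap_eq ℚ K ℂ) jq
    rw [← h2]
    exact laurent_mul (hc.mer_evHK p) (hc.mer d)

/-- the two evaluation maps have the same kernel -/
theorem evF_eq_zero_iff (P : MvPolynomial (Dv N) K) : evF K N P = 0 ↔ evH K N P = 0 := by
  rw [← (isChart_cCusp N 1).laurent_evHK_eq_zero_iff, laurent_evH_cCusp_one,
    map_eq_zero_iff _ (qExpand_injective N),
    map_eq_zero_iff _ (coeffMap_injective _ (algebraMap K ℂ).injective)]
  exact (ZeroMemClass.coe_eq_zero).symm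

end Fermat.Agent.ESlib
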