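import Fermat.Agent.ES.Dict.LevelOneK
import Fermat.Agent.ES.Dict.EvH
import Fermat.Agent.S20.Comb

/-!
# S24 library, task G8: every polynomial in the generators is a root of a monic polynomial of
degree `ψ(N)` over `K[j]`
-/

set_option autoImplicit false
set_option linter.unusedSectionVars false

open UpperHalfPlane hiding I
open ModularForm MatrixGroups Filter Topology ModularCurve Complex
open scoped Manifold Real

open Fermat.Agent.S24lib

namespace Fermat.Agent.ESlib

variable {K : Type} [Field K] [Algebra ℚ K] [IsAlgClosed K] [CharZero K] [Algebra K ℂ]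
  [IsScalarTower ℚ K ℂ]

variable (N : ℕ) [NeZero N]

variable (K) in
/-- holomorphic functions on `ℍ`, meromorphic at `∞` with `K`-rational expansion -/
def SSring : Subring (ℍ → ℂ) where
  carrier := {h | MDiff h ∧ MeromorphicAt (fun q => h (cCusp N 1 q)) 0 ∧
    laurent (fun q => h (cCusp N 1 q)) ∈ KRat K}
  mul_mem' := by
    rintro a b ⟨a1, a2, a3⟩ ⟨b1, b2, b3⟩
    refine ⟨a1.mul b1, a2.mul b2, ?_⟩
    have := laurent_mul a2 b2
    exact this ▸ mul_mem a3 b3
  one_mem' := by
    refine ⟨mdifferentiable_const, MeromorphicAt.const 1 0, ?_⟩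
    have := laurent_const 1
    exact this ▸ (by rw [map_one]; exact one_mem _)
  add_mem' := by
    rintro a b ⟨a1, a2, a3⟩ ⟨b1, b2, b3⟩
    refine ⟨a1.add b1, a2.add b2, ?_⟩
    have := laurent_add a2 b2
    exact this ▸ add_mem a3 b3
  zero_mem' := by
    refine ⟨mdifferentiable_const, MeromorphicAt.const 0 0, ?_⟩
    have := laurent_const 0
    exact this ▸ (by rw [map_zero]; exact zero_mem _)
  neg_mem' := by
    rintro a ⟨a1, a2, a3⟩
    refine ⟨a1.neg, a2.neg, ?_⟩
    have h1 : laurent (fun q => (-a) (cCusp N 1 q)) = - laurent (fun q => a (cCusp N 1 q)) := by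
      have := map_neg laurentHom (⟨_, a2⟩ : Mer)
      exact this
    rw [h1]
    exact neg_mem a3

/-- the conjugates of `evH K N P` -/
noncomputable def thetaFun (P : MvPolynomial (Dv N) K)
    (x : SL(2, ℤ) ⧸ CongruenceSubgroup.Gamma0 N) (τ : ℍ) : ℂ :=
  evH K N P ((x.out)⁻¹ • τ)

theorem thetaFun_mem (P : MvPolynomial (Dv N) K) (x : SL(2, ℤ) ⧸ CongruenceSubgroup.Gamma0 N) :
    thetaFun N P x ∈ SSring K N := by
  have h1 : (fun q => thetaFun N P x (cCusp N 1 q)) = fun q => evH K N P (cCusp N (x.out)⁻¹ q) := by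
    ext q
    simp only [thetaFun, cCusp, one_smul]
  refine ⟨mdiff_comp_smul (mdiff_evH N P) _, ?_, ?_⟩
  · rw [h1]; exact (isChart_cCusp N _).mer_evHK P
  · rw [h1]; exact laurent_evH_cCusp_mem_KRat N P _

theorem thetaFun_smul (P : MvPolynomial (Dv N) K) (g : SL(2, ℤ))
    (x : SL(2, ℤ) ⧸ CongruenceSubgroup.Gamma0 N) (τ : ℍ) :
    thetaFun N P (g⁻¹ • x) τ = thetaFun N P x (g • τ) := by
  have h1 : g⁻¹ • x = ((g⁻¹ * x.out : SL(2, ℤ)) : SL(2, ℤ) ⧸ CongruenceSubgroup.Gamma0 N) := by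
    conv_lhs => rw [← QuotientGroup.out_eq' x]
    rfl
  obtain ⟨e0, he0⟩ := QuotientGroup.mk_out_eq_mul (CongruenceSubgroup.Gamma0 N) (g⁻¹ * x.out)
  simp only [thetaFun]
  rw [h1, he0]
  have h2 : (g⁻¹ * x.out * (e0 : SL(2, ℤ)))⁻¹ • τ = ((e0 : SL(2, ℤ))⁻¹) • ((x.out)⁻¹ • (g • τ)) := by
    rw [← mul_smul, ← mul_smul]
    congr 1
    group
  rw [h2, evH_Gamma0 N P _ (inv_mem e0.2)]

theorem thetaFun_one (P : MvPolynomial (Dv N) K) :
    thetaFun N P ((1 : SL(2, ℤ)) : SL(2, ℤ) ⧸ CongruenceSubgroup.Gamma0 N) = evH K N P := by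
  ext τ
  obtain ⟨e0, he0⟩ := QuotientGroup.mk_out_eq_mul (CongruenceSubgroup.Gamma0 N) 1
  simp only [thetaFun]
  rw [he0, one_mul, evH_Gamma0 N P _ (inv_mem e0.2)]

theorem jd_one (τ : ℍ) : jd 1 τ = jfun τ := by
  simp [jd]

instance finite_quot_Gamma0 : Finite (SL(2, ℤ) ⧸ CongruenceSubgroup.Gamma0 N) := by
  apply Nat.finite_of_card_ne_zero
  rw [S20lib.card_quot_Gamma0]
  have h1 : 1 ∈ N.divisors.filter Squarefree := by
    simp [NeZero.ne N]
  have h2 : 0 < N / 1 := by simpa using Nat.pos_of_ne_zero (NeZero.ne N)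
  have h3 := Finset.single_le_sum (f := fun d => N / d) (fun _ _ => Nat.zero_le _) h1
  have h4 : 0 < dedekindPsi N := lt_of_lt_of_le h2 h3
  omega

theorem eval₂_eq_algHom {K σ A : Type*} [Field K] [CommRing A] [Algebra K A]
    (φ : MvPolynomial σ K →ₐ[K] A) (X1 P : MvPolynomial σ K) (n : ℕ) (Q : Fin n → Polynomial K) :
    Polynomial.eval₂ (Polynomial.aeval (φ X1)).toRingHom (φ P)
      (Polynomial.X ^ n + ∑ i : Fin n, Polynomial.C (Q i) * Polynomial.X ^ (i : ℕ))
      = φ (P ^ n + ∑ i : Fin n, Polynomial.aeval X1 (Q i) * P ^ (i : ℕ)) := by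
  simp only [Polynomial.eval₂_add, Polynomial.eval₂_pow, Polynomial.eval₂_X,
    Polynomial.eval₂_finsetSum, Polynomial.eval₂_mul, Polynomial.eval₂_C, map_add, map_pow,
    map_sum, map_mul]
  congr 1
  refine Finset.sum_congr rfl fun i _ => ?_
  congr 1
  rw [← Polynomial.aeval_algHom_apply]
  rfl

theorem exists_monic_annihilator (P : MvPolynomial (Dv N) K) :
    ∃ χ : Polynomial (Polynomial K), χ.Monic ∧ χ.natDegree = dedekindPsi N ∧
      Polynomial.eval₂ (Polynomial.aeval (J1 K N)).toRingHom (evF K N P) χ = 0 := by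
  classical
  let X := SL(2, ℤ) ⧸ CongruenceSubgroup.Gamma0 N
  let _ : Fintype X := Fintype.ofFinite X
  have hcard : Fintype.card X = dedekindPsi N := by
    rw [← Nat.card_eq_fintype_card]; exact S20lib.card_quot_Gamma0 N
  set n := dedekindPsi N with hn
  let θ : X → SSring K N := fun x => ⟨thetaFun N P x, thetaFun_mem N P x⟩
  let χan : Polynomial (SSring K N) := ∏ x : X, (Polynomial.X - Polynomial.C (θ x))
  have hmonic : χan.Monic := Polynomial.monic_prod_of_monic _ _ fun x _ => Polynomial.monic_X_sub_C _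
  have hdeg : χan.natDegree = n := by
    rw [Polynomial.natDegree_prod_of_monic _ _ fun x _ => Polynomial.monic_X_sub_C _]
    simp [hcard]
  let ev : ℍ → (SSring K N →+* ℂ) := fun τ => (Pi.evalRingHom (fun _ : ℍ => ℂ) τ).comp (SSring K N).subtype
  have hmap : ∀ τ, χan.map (ev τ) = ∏ x : X, (Polynomial.X - Polynomial.C (thetaFun N P x τ)) := by
    intro τ
    rw [Polynomial.map_prod]
    refine Finset.prod_congr rfl fun x _ => ?_
    rw [Polynomial.map_sub, Polynomial.map_X, Polynomial.map_C]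
    rfl
  have hinv : ∀ (k : ℕ) (g : SL(2, ℤ)) (τ : ℍ),
      (χan.coeff k : ℍ → ℂ) (g • τ) = (χan.coeff k : ℍ → ℂ) τ := by
    intro k g τ
    have h1 : χan.map (ev (g • τ)) = χan.map (ev τ) := by
      rw [hmap, hmap, ← Equiv.prod_comp (MulAction.toPerm g⁻¹ : Equiv.Perm X)
        (fun x => Polynomial.X - Polynomial.C (thetaFun N P x τ))]
      refine Finset.prod_congr rfl fun x _ => ?_
      rw [MulAction.toPerm_apply, thetaFun_smul]
    have h2 := congrArg (fun p => Polynomial.coeff p k) h1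
    simp only [Polynomial.coeff_map] at h2
    exact h2
  have hQ : ∀ k : ℕ, ∃ Q : Polynomial K, ∀ τ : ℍ,
      (χan.coeff k : ℍ → ℂ) τ = Polynomial.aeval (jfun τ) Q := fun k =>
    levelOne_principle N _ (χan.coeff k).2.1 (hinv k) (χan.coeff k).2.2.1 (χan.coeff k).2.2.2
  choose Q hQ using hQ
  let p : Polynomial (Polynomial K) := ∑ i : Fin n, Polynomial.C (Q i) * Polynomial.X ^ (i : ℕ)
  have hp : p.degree < n := Polynomial.degree_sum_fin_lt _
  have hnd : (Polynomial.X ^ n + p).natDegree = n := by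
    rw [Polynomial.natDegree_add_eq_left_of_degree_lt (by rwa [Polynomial.degree_X_pow]),
      Polynomial.natDegree_X_pow]
  refine ⟨Polynomial.X ^ n + p, Polynomial.monic_X_pow_add hp, hnd, ?_⟩
  -- the polynomial `R` in the generators
  let X1 : MvPolynomial (Dv N) K := MvPolynomial.X ⟨1, one_dvd N⟩
  let R : MvPolynomial (Dv N) K := P ^ n + ∑ i : Fin n, Polynomial.aeval X1 (Q i) * P ^ (i : ℕ)
  have hX1 : evF K N X1 = J1 K N := by simp [X1, evF, J1]
  have hR : Polynomial.eval₂ (Polynomial.aeval (J1 K N)).toRingHom (evF K N P) (Polynomial.X ^ n + p)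
      = evF K N R := by
    rw [← hX1]
    exact eval₂_eq_algHom (evF K N) X1 P n (fun i => Q i)
  rw [hR, evF_eq_zero_iff]
  ext τ
  have hX1H : evH K N X1 τ = jfun τ := by
    simp only [X1, evH, MvPolynomial.aeval_X]
    exact jd_one τ
  have h1 : evH K N R τ = (χan.map (ev τ)).eval (evH K N P τ) := by
    have h2 : χan.map (ev τ) = Polynomial.X ^ n
        + ∑ i : Fin n, Polynomial.C (Polynomial.aeval (jfun τ) (Q i)) * Polynomial.X ^ (i : ℕ) := by
      conv_lhs => rw [hmonic.as_sum, hdeg]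
      rw [Polynomial.map_add, Polynomial.map_pow, Polynomial.map_X, Polynomial.map_sum,
        Finset.sum_range]
      congr 1
      refine Finset.sum_congr rfl fun i _ => ?_
      rw [Polynomial.map_mul, Polynomial.map_C, Polynomial.map_pow, Polynomial.map_X, ← hQ]
      rfl
    rw [h2]
    have h3 := eval₂_eq_algHom ((Pi.evalAlgHom K (fun _ : ℍ => ℂ) τ).comp (evH K N)) X1 P n
      (fun i => Q i)
    have h4 : ((Pi.evalAlgHom K (fun _ : ℍ => ℂ) τ).comp (evH K N)) X1 = jfun τ := hX1H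
    rw [h4] at h3
    refine Eq.trans h3.symm ?_
    simp only [Polynomial.eval₂_add, Polynomial.eval₂_pow, Polynomial.eval₂_X,
      Polynomial.eval₂_finsetSum, Polynomial.eval₂_mul, Polynomial.eval₂_C,
      Polynomial.eval_add, Polynomial.eval_pow, Polynomial.eval_X,
      Polynomial.eval_finsetSum, Polynomial.eval_mul, Polynomial.eval_C]
    rfl
  rw [h1, hmap, Polynomial.eval_prod]
  refine Finset.prod_eq_zero (Finset.mem_univ ((1 : SL(2, ℤ)) : X)) ?_
  rw [thetaFun_one]
  simp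

end Fermat.Agent.ESlib
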