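import Fermat.Agent.ES.Dict.Invariant
import Fermat.Agent.ES.Dict.Places

/-!
# ES library, part S: analytic avatars of elements of the function field

* `order_laurent`, `laurent_inv`, `laurent_div`, `laurent_pow` : more API for `S24lib.laurent`;
* `chartEmb_eq_laurent_div` : `f = evF P / evF Q` is expanded along a chart as the Laurent series of
  `evH P ∘ c / evH Q ∘ c`;
* `chartEmb_eq_laurent_of_mul` : the same for a function `H` on `ℍ` with `H * evH Q = evH P`;
* `exists_FK_of_invariant` : a holomorphic invariant function, meromorphic at the cusps, is the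
  avatar of an element of the function field;
* `dvd_order_chartEmb` : divisibility of all `ord_v f` gives divisibility of the orders along
  all charts.
-/

set_option autoImplicit false
set_option linter.unusedSectionVars false
set_option linter.style.haveILetI false

open UpperHalfPlane hiding I
open ModularForm MatrixGroups Filter Topology ModularCurve Complex AlgebraicCurve
open CongruenceSubgroup
open scoped Manifold Real
open Fermat.Agent.S24lib

namespace Fermat.Agent.ESlib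

variable {K : Type} [Field K] [Algebra ℚ K] [IsAlgClosed K] [CharZero K] [Algebra K ℂ]
  [IsScalarTower ℚ K ℂ]

theorem order_laurent {φ : ℂ → ℂ} (hφ : MeromorphicAt φ 0) :
    (laurent φ).order = (meromorphicOrderAt φ 0).untop₀ := by
  by_cases h0 : laurent φ = 0
  · have h1 : meromorphicOrderAt φ 0 = ⊤ := by
      rw [meromorphicOrderAt_eq_top_iff, ← laurent_eq_zero_iff hφ]
      exact h0
    rw [h0, h1]
    simp
  · have h1 : meromorphicOrderAt φ 0 ≠ ⊤ := by
      rw [Ne, meromorphicOrderAt_eq_top_iff, ← laurent_eq_zero_iff hφ]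
      exact h0
    obtain ⟨g, hg, hg0, hk⟩ := (meromorphicOrderAt_ne_top_iff hφ).1 h1
    have hk' : ∀ᶠ z in 𝓝[≠] (0 : ℂ), φ z = z ^ (meromorphicOrderAt φ 0).untop₀ * g z := by
      filter_upwards [hk] with z hz
      simpa using hz
    exact (order_laurent_eq hg hg0 hk').2.1

theorem laurent_one : laurent (fun _ => (1 : ℂ)) = 1 := by
  rw [laurent_const]
  simp

theorem laurent_zero : laurent (fun _ => (0 : ℂ)) = 0 := by
  rw [laurent_const]
  simp

theorem laurent_inv {φ : ℂ → ℂ} (hφ : MeromorphicAt φ 0) :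
    laurent (fun z => (φ z)⁻¹) = (laurent φ)⁻¹ := by
  by_cases h0 : laurent φ = 0
  · rw [h0, inv_zero]
    have h1 := (laurent_eq_zero_iff hφ).1 h0
    rw [← laurent_zero]
    refine laurent_congr ?_
    filter_upwards [h1] with z hz
    rw [hz, inv_zero]
  · refine eq_inv_of_mul_eq_one_left ?_
    have hinv : MeromorphicAt (fun z => (φ z)⁻¹) 0 := hφ.inv
    have h1 := laurent_mul hinv hφ
    rw [← h1, ← laurent_one]
    refine laurent_congr ?_
    obtain ⟨g, hg, -, hg0, hk⟩ := exists_eq_zpow_mul hφ h0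
    filter_upwards [hk, self_mem_nhdsWithin,
      (hg.continuousAt.eventually_ne hg0).filter_mono nhdsWithin_le_nhds] with z hz hz0 hgz
    have hz0 : z ≠ 0 := hz0
    have : φ z ≠ 0 := by
      rw [hz]
      exact mul_ne_zero (zpow_ne_zero _ hz0) hgz
    simp only [Pi.mul_apply]
    exact inv_mul_cancel₀ this

theorem laurent_div {φ ψ : ℂ → ℂ} (hφ : MeromorphicAt φ 0) (hψ : MeromorphicAt ψ 0) :
    laurent (fun z => φ z / ψ z) = laurent φ / laurent ψ := by
  have hinv : MeromorphicAt (fun z => (ψ z)⁻¹) 0 := hψ.inv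
  have h1 := laurent_mul hφ hinv
  rw [div_eq_mul_inv, ← laurent_inv hψ, ← h1]
  rfl

theorem laurent_pow {φ : ℂ → ℂ} (hφ : MeromorphicAt φ 0) (n : ℕ) :
    laurent (fun z => φ z ^ n) = laurent φ ^ n := by
  induction n with
  | zero => simpa using laurent_one
  | succ n ih =>
    have h1 := laurent_mul (hφ.pow n) hφ
    rw [pow_succ, ← ih]
    exact h1

variable {N : ℕ} [NeZero N]

/-- the expansion of `f = evF P / evF Q` along a chart -/
theorem chartEmb_eq_laurent_div {c : ℂ → ℍ} (hc : IsChart N c) {f : FK K N}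
    {P Q : MvPolynomial (Dv N) K} (hQ : evF K N Q ≠ 0) (h : f * evF K N Q = evF K N P) :
    chartEmb K hc f = laurent (fun t => evH K N P (c t) / evH K N Q (c t)) := by
  rw [laurent_div (hc.mer_evHK P) (hc.mer_evHK Q), ← chartEmb_evF, ← chartEmb_evF, ← h, map_mul]
  exact (mul_div_cancel_right₀ _ (chartEmb_ne_zero hc hQ)).symm

/-- along a chart, a non-zero `evH Q` is eventually non-zero -/
theorem eventually_evH_ne_zero {c : ℂ → ℍ} (hc : IsChart N c) {Q : MvPolynomial (Dv N) K}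
    (hQ : evH K N Q ≠ 0) : ∀ᶠ t in 𝓝[≠] (0 : ℂ), evH K N Q (c t) ≠ 0 := by
  rcases (hc.mer_evHK Q).eventually_eq_zero_or_eventually_ne_zero with h | h
  · exact absurd (hc.ident _ (mdiff_evH N Q) h) hQ
  · exact h

/-- the expansion of `f` along a chart in terms of an avatar `H` -/
theorem chartEmb_eq_laurent_of_mul {c : ℂ → ℍ} (hc : IsChart N c) {f : FK K N}
    {P Q : MvPolynomial (Dv N) K} (hQ : evF K N Q ≠ 0) (h : f * evF K N Q = evF K N P)
    {H : ℍ → ℂ} (hH : ∀ τ, H τ * evH K N Q τ = evH K N P τ) :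
    chartEmb K hc f = laurent (fun t => H (c t)) := by
  rw [chartEmb_eq_laurent_div hc hQ h]
  refine laurent_congr ?_
  have hQ' : evH K N Q ≠ 0 := fun h0 => hQ ((evF_eq_zero_iff N Q).2 h0)
  filter_upwards [eventually_evH_ne_zero hc hQ'] with t ht
  rw [← hH, mul_div_cancel_right₀ _ ht]

/-- `H` is an analytic avatar of `f ∈ FK K N` -/
def IsAvatar (f : FK K N) (H : ℍ → ℂ) : Prop :=
  ∃ P Q : MvPolynomial (Dv N) K, evF K N Q ≠ 0 ∧ f * evF K N Q = evF K N P ∧
    ∀ τ, H τ * evH K N Q τ = evH K N P τ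

theorem IsAvatar.chartEmb_eq {f : FK K N} {H : ℍ → ℂ} (h : IsAvatar f H) {c : ℂ → ℍ}
    (hc : IsChart N c) : chartEmb K hc f = laurent (fun t => H (c t)) := by
  obtain ⟨P, Q, hQ, h1, h2⟩ := h
  exact chartEmb_eq_laurent_of_mul hc hQ h1 h2

theorem IsAvatar.meromorphicAt {f : FK K N} {H : ℍ → ℂ} (h : IsAvatar f H) {c : ℂ → ℍ}
    (hc : IsChart N c) : MeromorphicAt (fun t => H (c t)) 0 := by
  obtain ⟨P, Q, hQ, h1, h2⟩ := h
  have hQ' : evH K N Q ≠ 0 := fun h0 => hQ ((evF_eq_zero_iff N Q).2 h0)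
  refine ((hc.mer_evHK P).div (hc.mer_evHK Q)).congr ?_
  filter_upwards [eventually_evH_ne_zero hc hQ'] with t ht
  simp only [Pi.div_apply]
  rw [← h2, mul_div_cancel_right₀ _ ht]

theorem isAvatar_evF (P : MvPolynomial (Dv N) K) : IsAvatar (evF K N P) (evH K N P) :=
  ⟨P, 1, by simp, by simp, fun τ => by simp⟩

theorem IsAvatar.mul {f g : FK K N} {H G : ℍ → ℂ} (hf : IsAvatar f H) (hg : IsAvatar g G) :
    IsAvatar (f * g) (fun τ => H τ * G τ) := by
  obtain ⟨P, Q, hQ, h1, h2⟩ := hf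
  obtain ⟨P', Q', hQ', h1', h2'⟩ := hg
  refine ⟨P * P', Q * Q', ?_, ?_, fun τ => ?_⟩
  · rw [map_mul]; exact mul_ne_zero hQ hQ'
  · rw [map_mul, map_mul, ← h1, ← h1']; ring
  · rw [map_mul, map_mul, Pi.mul_apply, Pi.mul_apply, ← h2, ← h2']; ring

theorem IsAvatar.add {f g : FK K N} {H G : ℍ → ℂ} (hf : IsAvatar f H) (hg : IsAvatar g G) :
    IsAvatar (f + g) (fun τ => H τ + G τ) := by
  obtain ⟨P, Q, hQ, h1, h2⟩ := hf
  obtain ⟨P', Q', hQ', h1', h2'⟩ := hg
  refine ⟨P * Q' + P' * Q, Q * Q', ?_, ?_, fun τ => ?_⟩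
  · rw [map_mul]; exact mul_ne_zero hQ hQ'
  · simp only [map_mul, map_add]; rw [← h1, ← h1']; ring
  · simp only [map_mul, map_add, Pi.mul_apply, Pi.add_apply]; rw [← h2, ← h2']; ring

theorem IsAvatar.pow {f : FK K N} {H : ℍ → ℂ} (hf : IsAvatar f H) (n : ℕ) :
    IsAvatar (f ^ n) (fun τ => H τ ^ n) := by
  obtain ⟨P, Q, hQ, h1, h2⟩ := hf
  refine ⟨P ^ n, Q ^ n, ?_, ?_, fun τ => ?_⟩
  · rw [map_pow]; exact pow_ne_zero _ hQ
  · rw [map_pow, map_pow, ← h1, mul_pow]
  · rw [map_pow, map_pow, Pi.pow_apply, Pi.pow_apply, ← h2, mul_pow]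

/-- an element is determined by a holomorphic avatar -/
theorem IsAvatar.unique {f g : FK K N} {H : ℍ → ℂ} (hf : IsAvatar f H) (hg : IsAvatar g H) :
    f = g := by
  have hc := isChart_cInt N 1 UpperHalfPlane.I
  have h1 := hf.chartEmb_eq hc
  have h2 := hg.chartEmb_eq hc
  exact (chartEmb K hc).toRingHom.injective (h1.trans h2.symm)

variable (N) in
/-- **Holomorphic invariant functions are avatars of elements of the function field.** -/
theorem exists_FK_of_invariant (H : ℍ → ℂ) (hH : MDiff H)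
    (hinv : ∀ δ ∈ Gamma0 N, ∀ τ, H (δ • τ) = H τ)
    (hmer : ∀ γ : SL(2, ℤ), MeromorphicAt (fun q => H (cCusp N γ q)) 0)
    (hK : ∀ γ : SL(2, ℤ), laurent (fun q => H (cCusp N γ q)) ∈ KRat K) :
    ∃ f : FK K N, IsAvatar f H := by
  obtain ⟨P, Q, hQ, h⟩ := exists_evH_of_invariant (K := K) N H hH hinv hmer hK
  have hQ' : evF K N Q ≠ 0 := fun h0 => hQ ((evF_eq_zero_iff N Q).1 h0)
  exact ⟨evF K N P / evF K N Q, P, Q, hQ', div_mul_cancel₀ _ hQ', h⟩

variable (N) in
/-- the case `K = ℂ`: no rationality hypothesis -/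
theorem exists_FK_of_invariant_complex (H : ℍ → ℂ) (hH : MDiff H)
    (hinv : ∀ δ ∈ Gamma0 N, ∀ τ, H (δ • τ) = H τ)
    (hmer : ∀ γ : SL(2, ℤ), MeromorphicAt (fun q => H (cCusp N γ q)) 0) :
    ∃ f : FK ℂ N, IsAvatar f H :=
  exists_FK_of_invariant N H hH hinv hmer fun _ => mem_KRat_complex _

/-- divisibility of the divisor gives divisibility of the order along every chart -/
theorem dvd_order_chartEmb {c : ℂ → ℍ} (hc : IsChart N c) {f : FK K N} {m : ℤ}
    (hm : ∀ v : Place K (FK K N), m ∣ v.ord f) : m ∣ (chartEmb K hc f).order := by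
  by_cases hf : f = 0
  · rw [hf, map_zero, HahnSeries.order_zero]
    exact dvd_zero m
  by_cases hnt : ∃ g : FK K N, g ≠ 0 ∧ (chartEmb K hc g).order ≠ 0
  · obtain ⟨v, e, -, hv⟩ := exists_place_of_chart hc hnt
    rw [hv f hf]
    exact Dvd.dvd.mul_left (hm v) _
  · push Not at hnt
    rw [hnt f hf]
    exact dvd_zero m

end Fermat.Agent.ESlib
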