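import Fermat.Agent.S24.ChartDefs

/-!
# ES library, part S: the S24 dictionary over a general algebraically closed constant field `K ⊆ ℂ`

`K` is a field with `[Algebra ℚ K] [Algebra K ℂ]` (in practice `K = ℂ` or `K = Q-bar`).
`FK K N` is the function field of `X₀(N)` over `K` (inside `K((q))`).  The `K`-independent notions
(`jd`, `IsChart`, `cInt`, `cCusp`, `mob`, `laurent`, ...) are those of `Fermat.Agent.S24lib`.
-/

set_option autoImplicit false
set_option linter.unusedSectionVars false

open UpperHalfPlane ModularForm MatrixGroups Filter Topology ModularCurve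
open scoped Manifold
open Fermat.Agent.S24lib

namespace Fermat.Agent.ESlib

variable (K : Type) [Field K] [Algebra ℚ K]

/-- the function field of `X₀(N)` over `K` -/
abbrev FK (N : ℕ) := ↥(laurentBaseChange K (modularFunctionFieldFull N))

noncomputable instance instFieldFK (N : ℕ) : Field (FK K N) := inferInstance

noncomputable instance instCommRingFK (N : ℕ) : CommRing (FK K N) := inferInstance

noncomputable instance instAlgebraFK (N : ℕ) : Algebra K (FK K N) := inferInstance

noncomputable instance instModuleFK (N : ℕ) : Module K (FK K N) := inferInstance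

variable (N : ℕ) [NeZero N]

/-- the generators `j(q^d)`, `d ∣ N`, of the function field -/
noncomputable def Jgen (d : Dv N) : FK K N :=
  ⟨coeffEmb K (qExpand ℚ d.1 jq), coeffEmb_mem_laurentBaseChange K (jqd_mem_full N d.2)⟩

/-- `j` itself as an element of the function field -/
noncomputable def J1 : FK K N := Jgen K N ⟨1, one_dvd N⟩

/-- evaluation of polynomials at the formal generators -/
noncomputable def evF : MvPolynomial (Dv N) K →ₐ[K] FK K N := MvPolynomial.aeval (Jgen K N)

variable [Algebra K ℂ]

/-- evaluation of polynomials at the analytic generators -/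
noncomputable def evH : MvPolynomial (Dv N) K →ₐ[K] (ℍ → ℂ) :=
  MvPolynomial.aeval (fun d : Dv N => jd d.1)

/-- Laurent series over `ℂ` all of whose coefficients lie in `K` -/
noncomputable def KRat : Subalgebra K (LaurentSeries ℂ) where
  __ := (coeffMap (algebraMap K ℂ)).range
  algebraMap_mem' := fun a => ⟨HahnSeries.C a, by
    rw [HahnSeries.algebraMap_apply', PowerSeries.algebraMap_apply, HahnSeries.ofPowerSeries_C]
    exact coeffMap_single _ _ _⟩

variable {K}

theorem mem_KRat {s : LaurentSeries ℂ} :
    s ∈ KRat K ↔ ∃ s' : LaurentSeries K, coeffMap (algebraMap K ℂ) s' = s := Iff.rfl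

end Fermat.Agent.ESlib
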