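import Fermat.Agent.ES.Dict.Defs
import Fermat.Agent.S24.Ident

/-!
# S24 library, task G4: the identity principle; `cInt` and `cCusp` are charts
-/

set_option autoImplicit false
set_option linter.unusedSectionVars false

open UpperHalfPlane hiding I
open ModularForm MatrixGroups Filter Topology ModularCurve Complex
open scoped Manifold Real

open Fermat.Agent.S24lib

namespace Fermat.Agent.ESlib

variable {K : Type} [Field K] [Algebra ℚ K] [IsAlgClosed K] [CharZero K] [Algebra K ℂ]
  [IsScalarTower ℚ K ℂ]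

variable (N : ℕ) [NeZero N]

theorem exists_algebraMap_eq_of_isIntegral {x : ℂ} (hx : IsIntegral K x) :
    ∃ a : K, algebraMap K ℂ a = x :=
  minpoly.mem_range_of_degree_eq_one K x
    (IsAlgClosed.degree_eq_one_of_irreducible K (minpoly.irreducible hx))

/-- multiply the `k`-th coefficient by `ζ ^ k` (over `K`) -/
noncomputable def twistK (ζ : K) (S : LaurentSeries K) : LaurentSeries K where
  coeff k := ζ ^ k * S.coeff k
  isPWO_support' := S.isPWO_support.mono fun k hk => by
    simp only [Function.mem_support, ne_eq, mul_eq_zero, not_or] at hk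
    exact hk.2

/-- the Laurent expansions of the generators at the cusps have coefficients in `K` -/
theorem laurent_jd_cCusp_mem_KRat (d : Dv N) (γ : SL(2, ℤ)) :
    laurent (fun q => jd d.1 (cCusp N γ q)) ∈ KRat K := by
  obtain ⟨e, ζ, he, hζ, hζN, hev⟩ := jd_cCusp' N d γ
  have : NeZero e := ⟨he⟩
  have hint : IsIntegral K ζ :=
    IsIntegral.of_pow (Nat.pos_of_ne_zero (NeZero.ne N)) (by rw [hζN]; exact isIntegral_one)
  obtain ⟨ζ', hζ'⟩ := exists_algebraMap_eq_of_isIntegral hint
  rw [laurent_congr hev, (laurent_comp_mul_pow meromorphicAt_jcusp hζ e).2, laurent_jcusp, mem_KRat]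
  refine ⟨qExpand K e (twistK ζ' (coeffMap (algebraMap ℚ K) jq)), ?_⟩
  ext k
  rw [coeffMap_coeff]
  by_cases hk : (e : ℤ) ∣ k
  · obtain ⟨i, rfl⟩ := hk
    rw [qExpand_coeff_mul, qExpand_coeff_mul, coeff_twist, coeffMap_coeff]
    show algebraMap K ℂ (ζ' ^ i * (coeffMap (algebraMap ℚ K) jq).coeff i) = _
    rw [coeffMap_coeff, map_mul, map_zpow₀, hζ', ← IsScalarTower.algebraMap_apply]
  · rw [qExpand_coeff_of_not_dvd _ _ hk, qExpand_coeff_of_not_dvd _ _ hk, map_zero]

end Fermat.Agent.ESlib
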