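import Fermat.Agent.ES.Dict.KRatCusp
import Fermat.Agent.S24.MobGerm
import Fermat.Agent.S28.AnPoly
import Fermat.Prelude.Thm_ModularCurve_coeffMap_qExpand

/-!
# S24 library, task G7: holomorphic level one functions with `K`-rational expansion are
polynomials in `j` with coefficients in `K`
-/

set_option autoImplicit false
set_option linter.unusedSectionVars false

open UpperHalfPlane hiding I
open ModularForm MatrixGroups Filter Topology ModularCurve Complex
open scoped Manifold Real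

open Fermat.Agent.S24lib

namespace Fermat.Agent.ESlib

variable {K : Type} [Field K] [Algebra ℚ K] [IsAlgClosed K] [CharZero K] [Algebra K ℂ]
  [IsScalarTower ℚ K ℂ]

variable (N : ℕ) [NeZero N]

/-- the expansion of `j` in the parameter `q_N` -/
noncomputable def JN : LaurentSeries ℂ := qExpand ℂ N (coeffMap (algebraMap ℚ ℂ) jq)

theorem JN_pow (k : ℕ) : JN N ^ k = qExpand ℂ N (coeffMap (algebraMap ℚ ℂ) (jq ^ k)) := by
  rw [JN, map_pow, map_pow]

theorem coeff_JN_pow_self (k : ℕ) : (JN N ^ k).coeff ((N : ℤ) * (-(k : ℤ))) = 1 := by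
  rw [JN_pow, qExpand_coeff_mul, coeffMap_coeff, coeff_jq_pow_self, map_one]

theorem coeff_JN_pow_of_lt {k : ℕ} {i : ℤ} (hi : i < (N : ℤ) * (-(k : ℤ))) :
    (JN N ^ k).coeff i = 0 := by
  rw [JN_pow]
  by_cases hd : (N : ℤ) ∣ i
  · obtain ⟨m, rfl⟩ := hd
    have hN : (0 : ℤ) < N := by exact_mod_cast Nat.pos_of_ne_zero (NeZero.ne N)
    rw [qExpand_coeff_mul, coeffMap_coeff, coeff_jq_pow_of_lt (lt_of_mul_lt_mul_left hi hN.le),
      map_zero]
  · exact qExpand_coeff_of_not_dvd N _ hd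

theorem JN_mem_KRat : JN N ∈ KRat K := by
  rw [mem_KRat]
  refine ⟨qExpand K N (coeffMap (algebraMap ℚ K) jq), ?_⟩
  rw [coeffMap_qExpand, coeffMap_coeffMap, JN, IsScalarTower.algebraMap_eq ℚ K ℂ]

theorem coeff_mem_of_mem_KRat {s : LaurentSeries ℂ} (hs : s ∈ KRat K) (i : ℤ) :
    ∃ c : K, algebraMap K ℂ c = s.coeff i := by
  obtain ⟨s', rfl⟩ := mem_KRat.1 hs
  exact ⟨s'.coeff i, (coeffMap_coeff _ _ _).symm⟩

theorem coeff_algebraMap_mul (c : ℂ) (x : LaurentSeries ℂ) (i : ℤ) :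
    (algebraMap ℂ (LaurentSeries ℂ) c * x).coeff i = c * x.coeff i := by
  rw [ModularCurve.algebraMap_laurentSeries_eq_single, HahnSeries.coeff_single_zero_mul]

theorem algebraMap_mem_KRat (c : K) :
    algebraMap ℂ (LaurentSeries ℂ) (algebraMap K ℂ c) ∈ KRat K := by
  rw [mem_KRat, ModularCurve.algebraMap_laurentSeries_eq_single]
  exact ⟨HahnSeries.single 0 c, coeffMap_single _ _ _⟩

theorem coeff_aeval_JN_of_lt {n : ℕ} {P : Polynomial ℂ} (hP : P.natDegree ≤ n) {i : ℤ}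
    (hi : i < (N : ℤ) * (-(n : ℤ))) : (Polynomial.aeval (JN N) P).coeff i = 0 := by
  rw [Polynomial.aeval_eq_sum_range' (Nat.lt_succ_of_le hP)]
  rw [← HahnSeries.coeff.addMonoidHom_apply, map_sum]
  refine Finset.sum_eq_zero fun k hk => ?_
  have hk' : k ≤ n := Nat.lt_succ_iff.1 (Finset.mem_range.1 hk)
  have hN : (0 : ℤ) < N := by exact_mod_cast Nat.pos_of_ne_zero (NeZero.ne N)
  have : i < (N : ℤ) * (-(k : ℤ)) := by
    refine lt_of_lt_of_le hi (mul_le_mul_of_nonneg_left ?_ hN.le)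
    have : (k : ℤ) ≤ n := by exact_mod_cast hk'
    omega
  rw [HahnSeries.coeff.addMonoidHom_apply, Algebra.smul_def, coeff_algebraMap_mul,
    coeff_JN_pow_of_lt N this, mul_zero]

/-- a complex polynomial in `j` whose expansion is `K`-rational has coefficients in `K` -/
theorem exists_map_eq_of_aeval_JN_mem (n : ℕ) : ∀ P : Polynomial ℂ, P.natDegree ≤ n →
    Polynomial.aeval (JN N) P ∈ KRat K → ∃ Q : Polynomial K, Q.map (algebraMap K ℂ) = P := by
  induction n with
  | zero =>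
    intro P hP hK
    rw [Polynomial.eq_C_of_natDegree_le_zero hP] at hK ⊢
    obtain ⟨c, hc⟩ := coeff_mem_of_mem_KRat hK 0
    rw [Polynomial.aeval_C, ModularCurve.algebraMap_laurentSeries_eq_single,
      HahnSeries.coeff_single_same] at hc
    exact ⟨Polynomial.C c, by rw [Polynomial.map_C, hc]⟩
  | succ n ih =>
    intro P hP hK
    set P' := P.erase (n + 1) with hP'
    have hdec : Polynomial.monomial (n + 1) (P.coeff (n + 1)) + P' = P :=
      Polynomial.monomial_add_erase P (n + 1)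
    have hdeg : P'.natDegree ≤ n := by
      rw [Polynomial.natDegree_le_iff_coeff_eq_zero]
      intro m hm
      rw [hP', Polynomial.coeff_erase]
      split_ifs with h
      · rfl
      · exact Polynomial.coeff_eq_zero_of_natDegree_lt (by omega)
    have hN : (0 : ℤ) < N := by exact_mod_cast Nat.pos_of_ne_zero (NeZero.ne N)
    have hev : Polynomial.aeval (JN N) P =
        algebraMap ℂ (LaurentSeries ℂ) (P.coeff (n + 1)) * JN N ^ (n + 1) +
          Polynomial.aeval (JN N) P' := by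
      conv_lhs => rw [← hdec]
      rw [map_add, Polynomial.aeval_monomial]
    obtain ⟨c, hc⟩ := coeff_mem_of_mem_KRat hK ((N : ℤ) * (-((n + 1 : ℕ) : ℤ)))
    rw [hev, HahnSeries.coeff_add, coeff_algebraMap_mul, coeff_JN_pow_self,
      coeff_aeval_JN_of_lt N hdeg (by push_cast; nlinarith), mul_one, add_zero] at hc
    have hK' : Polynomial.aeval (JN N) P' ∈ KRat K := by
      have h1 : Polynomial.aeval (JN N) P' =
          Polynomial.aeval (JN N) P -
            algebraMap ℂ (LaurentSeries ℂ) (algebraMap K ℂ c) * JN N ^ (n + 1) := by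
        rw [hev, ← hc]
        ring
      rw [h1]
      exact (KRat K).sub_mem hK ((KRat K).mul_mem (algebraMap_mem_KRat c) ((KRat K).pow_mem (JN_mem_KRat N) _))
    obtain ⟨Q', hQ'⟩ := ih P' hdeg hK'
    refine ⟨Polynomial.monomial (n + 1) c + Q', ?_⟩
    rw [Polynomial.map_add, Polynomial.map_monomial, hQ', hc, hdec]

local notation "Δ" => ModularForm.discriminant

theorem natCast_real_ne_zero : ((N : ℕ) : ℝ) ≠ 0 := by exact_mod_cast NeZero.ne N

theorem natCast_real_pos : (0 : ℝ) < ((N : ℕ) : ℝ) := by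
  exact_mod_cast Nat.pos_of_ne_zero (NeZero.ne N)

theorem exists_cCusp_one_qParam (τ : ℍ) :
    ∃ g : SL(2, ℤ), cCusp N 1 (Function.Periodic.qParam N τ) = g • τ := by
  obtain ⟨m, hm⟩ := Function.Periodic.qParam_left_inv_mod_period (natCast_real_ne_zero N) (τ : ℂ)
  refine ⟨ModularGroup.T ^ (m * N), ?_⟩
  rw [cCusp, one_smul, hm]
  have : (τ : ℂ) + m * ((N : ℕ) : ℝ) = ((ModularGroup.T ^ (m * N) • τ : ℍ) : ℂ) := by
    rw [UpperHalfPlane.modular_T_zpow_smul, UpperHalfPlane.coe_vadd]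
    push_cast
    ring
  rw [this, UpperHalfPlane.ofComplex_apply]

theorem jfun_cCusp_one {q : ℂ} (hq : q ≠ 0) (hq1 : ‖q‖ < 1) :
    jfun (cCusp N 1 q) = jcusp (1 * q ^ N) := by
  have him : 0 < (Function.Periodic.invQParam N q).im := by
    rw [Function.Periodic.im_invQParam]
    have h1 : Real.log ‖q‖ < 0 := Real.log_neg (norm_pos_iff.2 hq) hq1
    have h2 := natCast_real_pos N
    have h3 : -((N : ℕ) : ℝ) / (2 * π) < 0 := div_neg_of_neg_of_pos (by linarith) (by positivity)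
    exact mul_pos_of_neg_of_neg h3 h1
  rw [cCusp, one_smul, jfun_eq_jcusp, UpperHalfPlane.ofComplex_apply_of_im_pos him, one_mul]
  congr 1
  have h1 := Function.Periodic.qParam_right_inv (natCast_real_ne_zero N) hq
  conv_rhs => rw [← h1]
  simp only [Function.Periodic.qParam]
  rw [← Complex.exp_nat_mul]
  congr 1
  have : ((N : ℕ) : ℂ) ≠ 0 := by exact_mod_cast NeZero.ne N
  push_cast
  field_simp

theorem twist_one (S : LaurentSeries ℂ) : twist 1 S = S := by
  ext k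
  simp

theorem meromorphicAt_jfun_cCusp_one :
    MeromorphicAt (fun q => jfun (cCusp N 1 q)) 0 ∧ laurent (fun q => jfun (cCusp N 1 q)) = JN N := by
  have hev : (fun q => jfun (cCusp N 1 q)) =ᶠ[𝓝[≠] 0] fun q => jcusp (1 * q ^ N) := by
    filter_upwards [self_mem_nhdsWithin,
      nhdsWithin_le_nhds (Metric.ball_mem_nhds (0 : ℂ) one_pos)] with q hq hq1
    exact jfun_cCusp_one N hq (by simpa using hq1)
  obtain ⟨h1, h2⟩ := laurent_comp_mul_pow meromorphicAt_jcusp one_ne_zero N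
  refine ⟨h1.congr hev.symm, ?_⟩
  rw [laurent_congr hev, h2, twist_one, laurent_jcusp, JN]

theorem exists_isBoundedAtImInfty (h : ℍ → ℂ)
    (hinv : ∀ (g : SL(2, ℤ)) (τ : ℍ), h (g • τ) = h τ)
    (hmer : MeromorphicAt (fun q => h (cCusp N 1 q)) 0) :
    ∃ m : ℕ, IsBoundedAtImInfty (fun τ => (Δ τ) ^ m * h τ) := by
  obtain ⟨n, g, hg, hn⟩ := exists_rep hmer
  refine ⟨n, ?_⟩
  have hgO : g =O[𝓝[≠] (0 : ℂ)] (fun _ => (1 : ℂ)) :=
    (hg.continuousAt.tendsto.isBigO_one ℂ).mono nhdsWithin_le_nhds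
  have hφO : (fun q => h (cCusp N 1 q)) =O[𝓝[≠] (0 : ℂ)] (fun z : ℂ => z ^ (-(n : ℤ)) * 1) :=
    ((Asymptotics.isBigO_refl (fun z : ℂ => z ^ (-(n : ℤ))) _).mul hgO).congr' 
      (hn.mono fun z hz => hz.symm) EventuallyEq.rfl
  have ht : Tendsto (fun τ : ℍ => Function.Periodic.qParam N (τ : ℂ)) atImInfty (𝓝[≠] 0) :=
    (Function.Periodic.qParam_tendsto (natCast_real_pos N)).comp tendsto_coe_atImInfty
  have h1 := hφO.comp_tendsto ht
  have h2 : h =O[atImInfty] fun τ : ℍ => ‖Function.Periodic.qParam N (τ : ℂ)‖ ^ (-(n : ℤ)) := by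
    refine (h1.congr_left fun τ => ?_).norm_right.congr_right fun τ => ?_
    · obtain ⟨g', hg'⟩ := exists_cCusp_one_qParam N τ
      simp only [Function.comp_apply]
      rw [hg', hinv]
    · simp only [Function.comp_apply, mul_one, norm_zpow]
  have h3 : (fun τ : ℍ => Δ τ) =O[atImInfty] fun τ : ℍ => Real.exp (-2 * π * τ.im / 1) :=
    CuspFormClass.exp_decay_atImInfty (h := 1) CuspForm.discriminant one_pos
      one_mem_strictPeriods_SL
  have h4 := (h3.pow n).mul h2
  refine h4.trans (Asymptotics.IsBigO.of_bound 1 (Eventually.of_forall fun τ => ?_))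
  rw [Function.Periodic.norm_qParam]
  have hy : 0 < τ.im := τ.im_pos
  have hN1 : (1 : ℝ) ≤ ((N : ℕ) : ℝ) := by
    exact_mod_cast Nat.one_le_iff_ne_zero.2 (NeZero.ne N)
  simp only [UpperHalfPlane.coe_im, div_one, Pi.one_apply, norm_one, mul_one]
  rw [zpow_neg, zpow_natCast, ← Real.exp_nat_mul, ← Real.exp_nat_mul, ← Real.exp_neg,
    ← Real.exp_add, Real.norm_eq_abs, Real.abs_exp, Real.exp_le_one_iff]
  have h5 : τ.im / ((N : ℕ) : ℝ) ≤ τ.im := div_le_self hy.le hN1
  have h6 : (0 : ℝ) ≤ n := Nat.cast_nonneg n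
  have h7 : -2 * π * τ.im / ((N : ℕ) : ℝ) = -2 * π * (τ.im / ((N : ℕ) : ℝ)) := by ring
  rw [h7]
  have h8 : 0 ≤ (n : ℝ) * (2 * π) * (τ.im - τ.im / ((N : ℕ) : ℝ)) :=
    mul_nonneg (mul_nonneg h6 (by positivity)) (by linarith)
  nlinarith [h8]

theorem levelOne_principle (h : ℍ → ℂ) (hh : MDiff h)
    (hinv : ∀ (g : SL(2, ℤ)) (τ : ℍ), h (g • τ) = h τ)
    (hmer : MeromorphicAt (fun q => h (cCusp N 1 q)) 0)
    (hK : laurent (fun q => h (cCusp N 1 q)) ∈ KRat K) :
    ∃ Q : Polynomial K, ∀ τ : ℍ, h τ = Polynomial.aeval (jfun τ) Q := by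
  obtain ⟨m, hbd⟩ := exists_isBoundedAtImInfty N h hinv hmer
  obtain ⟨P, -, hP⟩ := S28lib.exists_poly_of_invariant h hh hinv m hbd
  obtain ⟨hψ, hψL⟩ := meromorphicAt_jfun_cCusp_one N
  set ψ' : Mer := ⟨fun q => jfun (cCusp N 1 q), hψ⟩ with hψ'
  have h1 : (fun q => h (cCusp N 1 q)) = ((Polynomial.aeval ψ' P : Mer) : ℂ → ℂ) := by
    have h2 : ((Polynomial.aeval ψ' P : Mer) : ℂ → ℂ) = Polynomial.aeval (ψ' : ℂ → ℂ) P :=
      (Polynomial.aeval_algHom_apply Mer.val ψ' P).symm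
    rw [h2]
    funext q
    rw [Polynomial.aeval_fn_apply, Polynomial.coe_aeval_eq_eval, hP]
  have h3 : laurent (fun q => h (cCusp N 1 q)) = Polynomial.aeval (JN N) P := by
    rw [h1, ← laurentHom_apply, ← Polynomial.aeval_algHom_apply, laurentHom_apply, ← hψL]
  rw [h3] at hK
  obtain ⟨Q, hQ⟩ := exists_map_eq_of_aeval_JN_mem N P.natDegree P le_rfl hK
  refine ⟨Q, fun τ => ?_⟩
  rw [hP, ← hQ, Polynomial.eval_map, Polynomial.aeval_def]

end Fermat.Agent.ESlib
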